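import Fermat.Agent.S37x.Asm.H12_InjM
import Fermat.Agent.S18x.IG.H24_HsmFinal
import Fermat.Agent.S18x.Asm.H18_Final

/-!
# S37, leaf [INJ] (helper12): `Asm.StInj` is a theorem

`StInj M ℓ A` is S18 for an ARBITRARY place reduction `r` at level `M`.

* `stInj_of_ig` : `StInj M ℓ A` at every level `M` prime to `ℓ` and divisible by a base prime
  `p₀ ∈ {2, 3}`, `p₀ ≠ ℓ` (no descent of the level);
* `stInj`       : `StInj N ℓ A` at EVERY level `N` prime to `ℓ` (descent of the level from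
  `M := h18_base ℓ * N`);
* `stInj_two`, `stInj_three` : the two base cases separately.
-/

set_option autoImplicit false
set_option synthInstance.maxHeartbeats 400000
set_option maxHeartbeats 1000000

open ModularCurve AlgebraicCurve HahnSeries

noncomputable section

namespace Fermat.Agent.S37x.Asm.H12

variable (ℓ : ℕ) [Fact ℓ.Prime] (A : ValuationSubring (AlgebraicClosure ℚ))

/-- **[INJ-M]**, hypothesis-free: S18 for an arbitrary place reduction at every level `M` prime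
to `ℓ` and divisible by a base prime `p₀ ∈ {2, 3}`, `p₀ ≠ ℓ`. -/
theorem stInj_of_ig (M : ℕ) [NeZero M] (hA : A.LiesOverPrime ℓ) (p₀ : ℕ)
    (hp₀ : p₀ = 2 ∨ p₀ = 3) (hp₀M : p₀ ∣ M) (hℓp₀ : ℓ ≠ p₀) (hℓM : ¬ ℓ ∣ M) :
    Fermat.Agent.S37x.Asm.StInj M ℓ A :=
  h12_stInj_of_kumVPrime M ℓ A hℓM hA
    (Fermat.Agent.S18x.IG.h24_stKumVPrime A (Fact.out : ℓ.Prime) hA M p₀ hp₀ hp₀M hℓp₀ hℓM)

/-- **[INJ-M]** for `2 ∣ M`, `ℓ` odd. -/
theorem stInj_two (M : ℕ) [NeZero M] (hA : A.LiesOverPrime ℓ) (hℓ2 : ℓ ≠ 2) (h2M : 2 ∣ M)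
    (hℓM : ¬ ℓ ∣ M) : Fermat.Agent.S37x.Asm.StInj M ℓ A :=
  stInj_of_ig ℓ A M hA 2 (Or.inl rfl) h2M hℓ2 hℓM

/-- **[INJ-M]** for `3 ∣ M`, `ℓ ≠ 3`. -/
theorem stInj_three (M : ℕ) [NeZero M] (hA : A.LiesOverPrime ℓ) (hℓ3 : ℓ ≠ 3) (h3M : 3 ∣ M)
    (hℓM : ¬ ℓ ∣ M) : Fermat.Agent.S37x.Asm.StInj M ℓ A :=
  stInj_of_ig ℓ A M hA 3 (Or.inr rfl) h3M hℓ3 hℓM

/-- **[INJ]**, hypothesis-free, at EVERY level `N` prime to `ℓ`: S18 for an arbitrary place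
reduction. -/
theorem stInj (N : ℕ) [NeZero N] (hℓN : ¬ ℓ ∣ N) (hA : A.LiesOverPrime ℓ) :
    Fermat.Agent.S37x.Asm.StInj N ℓ A := by
  haveI : NeZero (Fermat.Agent.S18x.Asm.h18_base ℓ * N) :=
    Fermat.Agent.S18x.Asm.h18_level_neZero ℓ N
  have hℓM : ¬ ℓ ∣ Fermat.Agent.S18x.Asm.h18_base ℓ * N :=
    Fermat.Agent.S18x.Asm.h18_not_dvd_level (Fact.out : ℓ.Prime) hℓN
  exact h12_stInj_of_kumVPrime_level ℓ A N (Fermat.Agent.S18x.Asm.h18_base ℓ * N)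
    (Dvd.intro_left _ rfl) hℓM hA
    (Fermat.Agent.S18x.IG.h24_stKumVPrime A (Fact.out : ℓ.Prime) hA
      (Fermat.Agent.S18x.Asm.h18_base ℓ * N) (Fermat.Agent.S18x.Asm.h18_base ℓ)
      (Fermat.Agent.S18x.Asm.h18_base_mem ℓ) (Dvd.intro _ rfl)
      (Fermat.Agent.S18x.Asm.h18_base_ne ℓ) hℓM)

end Fermat.Agent.S37x.Asm.H12
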