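import Mathlib
import Fermat.Prelude.Def_ModularCurve_HeckeModule
import Fermat.Prelude.Def_ModularCurve_ReductionModL
import Fermat.Prelude.Def_EllipticCurve_FrobeniusTrace

/-!
# S37, second layer: the reduction of places and the congruence relation at the level of places

`StSpec N p` (see `Asm/Defs.lean`) is obtained with `ρ := reductionPic0Along r hr hgen` from

* `StInj`  : S18 for an ARBITRARY place reduction `r` (same proof as the frozen S18, whose
  `reductionModL` uses a chosen `r`);
* `StRedES`: existence of a place reduction `r` (`ReductionInputsModL`), invariant under the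
  inertia group, together with the Hecke inputs at `ℓ` and the Eichler–Shimura congruence
  `r_* (T_ℓ P) = r (σ₀ P) + ℓ · r (σ₀⁻¹ P)` for every place `P` and one Frobenius element `σ₀`.
-/

set_option autoImplicit false
set_option synthInstance.maxHeartbeats 400000
set_option maxHeartbeats 1000000

open HahnSeries IntermediateField AlgebraicCurve ModularCurve

noncomputable section

namespace Fermat.Agent.S37x.Asm

variable (N : ℕ) [NeZero N]

/-- **[INJ]** S18 for an arbitrary place reduction. -/
def StInj (ℓ : ℕ) (A : ValuationSubring (AlgebraicClosure ℚ)) : Prop :=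
  ∀ (r : Place (AlgebraicClosure ℚ) (modularFunctionFieldBar N) →
      Place (IsLocalRing.ResidueField A) (modularFunctionFieldFullC (IsLocalRing.ResidueField A) N))
    (hr : IsPlaceReductionModL A N r)
    (hgen : PrincipalGeneratedByIntegral A (IsLocalRing.residue A) N)
    (m : ℕ), ¬ ℓ ∣ m → ∀ z : JZero N, m • z = 0 → reductionPic0Along r hr hgen z = 0 → z = 0

/-- **[ES]** the congruence relation at the level of places, for a place reduction `r` and a
Frobenius element `σ₀`: the Hecke inputs at `ℓ` hold and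
`r_* (T_ℓ P) = r (σ₀ P) + ℓ · r (σ₀⁻¹ P)`. -/
def StES (ℓ : ℕ) [NeZero ℓ] (A : ValuationSubring (AlgebraicClosure ℚ))
    (r : Place (AlgebraicClosure ℚ) (modularFunctionFieldBar N) →
      Place (IsLocalRing.ResidueField A) (modularFunctionFieldFullC (IsLocalRing.ResidueField A) N))
    (σ₀ : AlgebraicClosure ℚ ≃ₐ[ℚ] AlgebraicClosure ℚ) : Prop :=
  ∃ (hα : HeckeAlphaBarIntegral (AlgebraicClosure ℚ) N ℓ)
    (hβ : HeckeBetaBarIntegral (AlgebraicClosure ℚ) N ℓ)
    (_ : HasPrincipalDivisors (AlgebraicClosure ℚ) (modularFunctionFieldBar (N * ℓ)))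
    (hfin : FiniteAlong (AlgebraicClosure ℚ) (heckeAlphaBar (AlgebraicClosure ℚ) N ℓ)),
    FundamentalIdentityAlong (AlgebraicClosure ℚ) (heckeBetaBar (AlgebraicClosure ℚ) N ℓ) hβ ∧
    NormFormulaAlong (AlgebraicClosure ℚ) (heckeAlphaBar (AlgebraicClosure ℚ) N ℓ) hfin ∧
    ∀ P : Place (AlgebraicClosure ℚ) (modularFunctionFieldBar N),
      Finsupp.mapDomain r (heckeDivBar hα hβ (Finsupp.single P 1)) =
        Finsupp.single (r (arithmeticGalois (modularFunctionFieldFull N) σ₀ • P)) 1 +
          Finsupp.single (r ((arithmeticGalois (modularFunctionFieldFull N) σ₀)⁻¹ • P)) (ℓ : ℤ)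

/-- **[RED+ES]** existence of an inertia-invariant place reduction satisfying the congruence
relation. -/
def StRedES (ℓ : ℕ) [NeZero ℓ] (A : ValuationSubring (AlgebraicClosure ℚ)) : Prop :=
  ∃ (r : Place (AlgebraicClosure ℚ) (modularFunctionFieldBar N) →
      Place (IsLocalRing.ResidueField A) (modularFunctionFieldFullC (IsLocalRing.ResidueField A) N)),
    IsPlaceReductionModL A N r ∧ PrincipalGeneratedByIntegral A (IsLocalRing.residue A) N ∧
    (∀ τ ∈ A.inertiaSubgroupIn ℚ, ∀ P : Place (AlgebraicClosure ℚ) (modularFunctionFieldBar N),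
      r (arithmeticGalois (modularFunctionFieldFull N) τ • P) = r P) ∧
    ∃ σ₀ : AlgebraicClosure ℚ ≃ₐ[ℚ] AlgebraicClosure ℚ, A.IsFrobeniusAt σ₀ ℓ ∧ StES N ℓ A r σ₀

end Fermat.Agent.S37x.Asm
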