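import Fermat.Agent.S37x.Asm.Defs
import Fermat.Agent.S37x.Asm.DefsRed

/-!
# S37, layer 1: `StInj → StRedES → StSpec` (formal)

With `ρ := reductionPic0Along r hr hgen` for the place reduction `r` of `StRedES`:
injectivity on `p`-power torsion is `StInj`, inertia invariance and the congruence relation on
`Pic⁰` follow from the corresponding statements for places by additivity.
-/

set_option autoImplicit false
set_option synthInstance.maxHeartbeats 400000
set_option maxHeartbeats 1000000

open HahnSeries IntermediateField AlgebraicCurve ModularCurve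

noncomputable section

namespace Fermat.Agent.S37x.Asm

section Generic

variable {K F k F' : Type*} [Field K] [Field F] [Algebra K F] [Field k] [Field F']
  [Algebra k F']

/-- A map on places which is invariant under `g` induces a `g`-invariant map on divisors. -/
theorem h14_mapDomain_smul (r : Place K F → Place k F') (g : SemilinearAut K F)
    (hg : ∀ P : Place K F, r (g • P) = r P) (D : Divisor K F) :
    Finsupp.mapDomain r (g • D) = Finsupp.mapDomain r D := by
  induction D using Finsupp.induction_linear with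
  | zero => rw [smul_zero]
  | add D E hD hE => rw [smul_add, Finsupp.mapDomain_add, Finsupp.mapDomain_add, hD, hE]
  | single P n => rw [SemilinearAut.smul_single, Finsupp.mapDomain_single,
      Finsupp.mapDomain_single, hg]

/-- The congruence relation for divisors from the congruence relation for places. -/
theorem h14_congruence_divisor (r : Place K F → Place k F') (g : SemilinearAut K F)
    (T : Divisor K F →+ Divisor K F) (ℓ : ℕ)
    (hT : ∀ P : Place K F, Finsupp.mapDomain r (T (Finsupp.single P 1)) =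
      Finsupp.single (r (g • P)) 1 + Finsupp.single (r (g⁻¹ • P)) (ℓ : ℤ))
    (D : Divisor K F) :
    Finsupp.mapDomain r (g • g • D - T (g • D) + ℓ • D) = 0 := by
  induction D using Finsupp.induction_linear with
  | zero => simp
  | add D E hD hE =>
    have e : g • g • (D + E) - T (g • (D + E)) + ℓ • (D + E) =
        (g • g • D - T (g • D) + ℓ • D) + (g • g • E - T (g • E) + ℓ • E) := by
      rw [smul_add, smul_add, map_add, smul_add]
      abel
    rw [e, Finsupp.mapDomain_add, hD, hE, add_zero]
  | single P n =>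
    have e1 : T (Finsupp.single (g • P) n) = n • T (Finsupp.single (g • P) 1) := by
      rw [← map_zsmul, Finsupp.smul_single, smul_eq_mul, mul_one]
    have e2 : Finsupp.mapDomain r (n • T (Finsupp.single (g • P) 1)) =
        n • Finsupp.mapDomain r (T (Finsupp.single (g • P) 1)) :=
      map_zsmul (Finsupp.mapDomain.addMonoidHom r) n _
    have e3 : Finsupp.mapDomain r ((ℓ : ℕ) • Finsupp.single P n) =
        (ℓ : ℕ) • Finsupp.mapDomain r (Finsupp.single P n) :=
      map_nsmul (Finsupp.mapDomain.addMonoidHom r) ℓ _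
    rw [SemilinearAut.smul_single, SemilinearAut.smul_single, e1,
      ← Finsupp.mapDomain.addMonoidHom_apply, map_add, map_sub,
      Finsupp.mapDomain.addMonoidHom_apply, Finsupp.mapDomain.addMonoidHom_apply,
      Finsupp.mapDomain.addMonoidHom_apply, e2, e3, hT (g • P), inv_smul_smul,
      Finsupp.mapDomain_single, Finsupp.mapDomain_single, smul_add, Finsupp.smul_single,
      Finsupp.smul_single, Finsupp.smul_single, smul_eq_mul, smul_eq_mul, mul_one,
      nsmul_eq_mul]
    rw [mul_comm (ℓ : ℤ) n]
    abel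

end Generic

variable (N : ℕ) [NeZero N]

/-- **S37, layer 1**: `StInj` and `StRedES` give `StSpec`. -/
theorem stSpec_of (p : ℕ)
    (hinj : ∀ ℓ : ℕ, ℓ.Prime → ¬ ℓ ∣ N →
      ∀ A : ValuationSubring (AlgebraicClosure ℚ), A.LiesOverPrime ℓ → StInj N ℓ A)
    (hred : ∀ ℓ : ℕ, (hℓ : ℓ.Prime) → ¬ ℓ ∣ N * p →
      ∀ A : ValuationSubring (AlgebraicClosure ℚ), A.LiesOverPrime ℓ →
        haveI : NeZero ℓ := ⟨hℓ.ne_zero⟩
        StRedES N ℓ A) :
    StSpec N p := by
  intro ℓ hℓ hℓNp A hA
  have : NeZero ℓ := ⟨hℓ.ne_zero⟩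
  obtain ⟨r, hr, hgen, hinert, σ₀, hσ₀, hα, hβ, hP, hfin, hFI, hNF, hES⟩ := hred ℓ hℓ hℓNp A hA
  have hℓN : ¬ ℓ ∣ N := fun h => hℓNp (Dvd.dvd.mul_right h p)
  refine ⟨JZeroC (IsLocalRing.ResidueField A) N, inferInstance, reductionPic0Along r hr hgen,
    ?_, ?_, σ₀, hσ₀, ?_⟩
  · rintro x ⟨n, hn⟩ hx
    exact hinj ℓ hℓ hℓN A hA r hr hgen (p ^ n)
      (fun h => hℓNp ((hℓ.dvd_of_dvd_pow h).mul_left N)) x hn hx
  · intro τ hτ x
    obtain ⟨D, rfl⟩ := Pic0.mk_surjective x
    rw [galois_smul_pic0_def, SemilinearAut.pic0_smul_mk, reductionPic0Along_mk,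
      reductionPic0Along_mk]
    refine congrArg Pic0.mk (Subtype.ext ?_)
    rw [coe_reductionDegZeroAlong, coe_reductionDegZeroAlong, SemilinearAut.coe_degZeroSMulHom]
    exact h14_mapDomain_smul r _ (hinert τ hτ) _
  · intro x
    obtain ⟨D, rfl⟩ := Pic0.mk_surjective x
    set g := arithmeticGalois (modularFunctionFieldFull N) σ₀ with hg
    have e1 : heckeOperatorBar N ⟨ℓ, hℓ⟩ = (heckePic0Bar hα hβ hFI hfin hNF).toIntLinearMap := by
      unfold heckeOperatorBar
      exact congrArg AddMonoidHom.toIntLinearMap (heckeOperatorAlong_eq hα hβ hFI hfin hNF)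
    set E : Divisor.degZero (K := AlgebraicClosure ℚ) (F := modularFunctionFieldBar N) :=
      SemilinearAut.degZeroSMulHom g (SemilinearAut.degZeroSMulHom g D) -
        Pic0.degZeroCorrespondence (heckeBetaBar (AlgebraicClosure ℚ) N ℓ)
          (heckeAlphaBar (AlgebraicClosure ℚ) N ℓ) hβ hα hFI (SemilinearAut.degZeroSMulHom g D) +
        ℓ • D with hE
    have e2 : σ₀ • σ₀ • Pic0.mk D - heckeOperatorBar N ⟨ℓ, hℓ⟩ (σ₀ • Pic0.mk D) + ℓ • Pic0.mk D =
        Pic0.mk E := by
      rw [e1, galois_smul_pic0_def, galois_smul_pic0_def, SemilinearAut.pic0_smul_mk,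
        SemilinearAut.pic0_smul_mk]
      rfl
    rw [e2, reductionPic0Along_mk]
    have e3 : reductionDegZeroAlong r hr.1 E = 0 := by
      refine Subtype.ext ?_
      rw [coe_reductionDegZeroAlong]
      exact h14_congruence_divisor r g (heckeDivBar hα hβ) ℓ hES _
    rw [e3]
    rfl

end Fermat.Agent.S37x.Asm
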