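import Fermat.Agent.S37x.Asm.Defs

/-!
# S37: `StSpec N p →` the frozen statement (formal part)

Given a reduction map `ρ` as in `StSpec`, put
`K₁ := span_𝕋 ({τ x - x : τ ∈ I_A} ∪ {σ₀² x - T_ℓ σ₀ x + ℓ x})`, `J' := JZero N ⧸ K₁`,
`sp := mkQ`, `F :=` the map induced by `σ₀`.  Everything except the injectivity on `p`-power
torsion holds by construction; injectivity follows from `ρ K₁ = 0`.
-/

set_option autoImplicit false

open ModularCurve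

noncomputable section

namespace Fermat.Agent.S37x.Asm

section Abstract

variable {G : Type*} [Group G] {J : Type} [AddCommGroup J] [Module HeckeAlg J]
  [DistribMulAction G J] [SMulCommClass G HeckeAlg J]

/-- The generators of the kernel of the abstract specialisation. -/
def h14GenSet (I : Subgroup G) (σ₀ : G) (t : HeckeAlg) (ℓ : ℕ) : Set J :=
  {y | (∃ τ ∈ I, ∃ x : J, y = τ • x - x) ∨ ∃ x : J, y = σ₀ • σ₀ • x - t • (σ₀ • x) + ℓ • x}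

/-- The action of `σ₀` as a `𝕋`-linear map. -/
def h14SmulLin (σ₀ : G) : J →ₗ[HeckeAlg] J where
  toFun x := σ₀ • x
  map_add' x y := smul_add σ₀ x y
  map_smul' T x := smul_comm σ₀ T x

theorem h14_genSet_smul (I : Subgroup G) (σ₀ : G) (t : HeckeAlg) (ℓ : ℕ) (T : HeckeAlg)
    {y : J} (hy : y ∈ h14GenSet I σ₀ t ℓ) : T • y ∈ h14GenSet (J := J) I σ₀ t ℓ := by
  rcases hy with ⟨τ, hτ, x, rfl⟩ | ⟨x, rfl⟩
  · refine Or.inl ⟨τ, hτ, T • x, ?_⟩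
    rw [smul_sub, smul_comm τ T x]
  · refine Or.inr ⟨T • x, ?_⟩
    rw [smul_add, smul_sub, smul_comm σ₀ T x, smul_comm σ₀ T (σ₀ • x), smul_comm T t,
      ← smul_comm σ₀ T (σ₀ • x), smul_comm T ℓ x]

theorem h14_genSet_conj (I : Subgroup G) (σ₀ : G) (hnorm : ∀ τ ∈ I, σ₀ * τ * σ₀⁻¹ ∈ I)
    (t : HeckeAlg) (ℓ : ℕ) {y : J} (hy : y ∈ h14GenSet I σ₀ t ℓ) :
    σ₀ • y ∈ h14GenSet (J := J) I σ₀ t ℓ := by
  rcases hy with ⟨τ, hτ, x, rfl⟩ | ⟨x, rfl⟩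
  · refine Or.inl ⟨σ₀ * τ * σ₀⁻¹, hnorm τ hτ, σ₀ • x, ?_⟩
    rw [smul_sub, mul_smul, mul_smul, inv_smul_smul]
  · refine Or.inr ⟨σ₀ • x, ?_⟩
    rw [smul_add, smul_sub, smul_comm σ₀ t (σ₀ • x), smul_comm σ₀ ℓ x]

theorem h14_rho_span {M : Type*} [AddCommGroup M] (ρ : J →+ M) (I : Subgroup G) (σ₀ : G)
    (t : HeckeAlg) (ℓ : ℕ) (hgen : ∀ y ∈ h14GenSet (J := J) I σ₀ t ℓ, ρ y = 0) {y : J}
    (hy : y ∈ Submodule.span HeckeAlg (h14GenSet (J := J) I σ₀ t ℓ)) : ρ y = 0 := by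
  have key : ∀ T : HeckeAlg, ρ (T • y) = 0 := by
    induction hy using Submodule.span_induction with
    | mem z hz => exact fun T => hgen _ (h14_genSet_smul I σ₀ t ℓ T hz)
    | zero => intro T; rw [smul_zero, map_zero]
    | add z w _ _ hz hw => intro T; rw [smul_add, map_add, hz T, hw T, add_zero]
    | smul a z _ hz => intro T; rw [← mul_smul]; exact hz (T * a)
  simpa using key 1

/-- **The formal core of S37**: a reduction map `ρ` which is injective on `p`-power torsion,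
`I`-invariant and kills `σ₀² x - t σ₀ x + ℓ x` yields a specialisation datum. -/
theorem h14_specialization {M : Type*} [AddCommGroup M] (ρ : J →+ M) (I : Subgroup G) (σ₀ : G)
    (hnorm : ∀ τ ∈ I, σ₀ * τ * σ₀⁻¹ ∈ I) (t : HeckeAlg) (ℓ p : ℕ)
    (hinj : ∀ x : J, (∃ n : ℕ, p ^ n • x = 0) → ρ x = 0 → x = 0)
    (hI : ∀ τ ∈ I, ∀ x : J, ρ (τ • x) = ρ x)
    (hES : ∀ x : J, ρ (σ₀ • σ₀ • x - t • (σ₀ • x) + ℓ • x) = 0) :
    ∃ (J' : Type) (_ : AddCommGroup J') (_ : Module HeckeAlg J') (sp : J →+ J') (F : J' →+ J'),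
      (∀ (T : HeckeAlg) (x : J), sp (T • x) = T • sp x) ∧
      (∀ τ ∈ I, ∀ x : J, sp (τ • x) = sp x) ∧
      (∀ x : J, sp (σ₀ • x) = F (sp x)) ∧
      (∀ x : J, (∃ n : ℕ, p ^ n • x = 0) → sp x = 0 → x = 0) ∧
      ∀ y : J', F (F y) - t • F y + ℓ • y = 0 := by
  set K₁ : Submodule HeckeAlg J := Submodule.span HeckeAlg (h14GenSet (J := J) I σ₀ t ℓ) with hK₁
  have hle : K₁ ≤ K₁.comap (h14SmulLin (J := J) σ₀) := by
    rw [hK₁, Submodule.span_le]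
    intro y hy
    exact Submodule.subset_span (h14_genSet_conj I σ₀ hnorm t ℓ hy)
  have hgen : ∀ y ∈ h14GenSet (J := J) I σ₀ t ℓ, ρ y = 0 := by
    rintro y (⟨τ, hτ, x, rfl⟩ | ⟨x, rfl⟩)
    · rw [map_sub, hI τ hτ x, sub_self]
    · exact hES x
  refine ⟨J ⧸ K₁, inferInstance, inferInstance, K₁.mkQ.toAddMonoidHom,
    (K₁.mapQ K₁ (h14SmulLin (J := J) σ₀) hle).toAddMonoidHom, ?_, ?_, ?_, ?_, ?_⟩
  · intro T x
    exact map_smul K₁.mkQ T x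
  · intro τ hτ x
    show K₁.mkQ (τ • x) = K₁.mkQ x
    rw [← sub_eq_zero, ← map_sub, Submodule.mkQ_apply, Submodule.Quotient.mk_eq_zero]
    exact Submodule.subset_span (Or.inl ⟨τ, hτ, x, rfl⟩)
  · intro x
    rfl
  · intro x hx hsp
    refine hinj x hx (h14_rho_span ρ I σ₀ t ℓ hgen ?_)
    have : K₁.mkQ x = 0 := hsp
    rwa [Submodule.mkQ_apply, Submodule.Quotient.mk_eq_zero] at this
  · intro y
    obtain ⟨x, rfl⟩ := K₁.mkQ_surjective y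
    show K₁.mkQ (σ₀ • σ₀ • x) - t • K₁.mkQ (σ₀ • x) + ℓ • K₁.mkQ x = 0
    rw [← map_smul, ← map_nsmul, ← map_sub, ← map_add, Submodule.mkQ_apply,
      Submodule.Quotient.mk_eq_zero]
    exact Submodule.subset_span (Or.inr ⟨x, rfl⟩)

end Abstract

section Frobenius

variable {K L : Type*} [Field K] [Field L] [Algebra K L]

/-- Conjugation by an element of the decomposition group preserves the inertia group. -/
theorem h14_conj_mem_inertia (A : ValuationSubring L) {σ τ : L ≃ₐ[K] L}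
    (hσ : σ ∈ A.decompositionSubgroup K) (hτ : τ ∈ A.inertiaSubgroupIn K) :
    σ * τ * σ⁻¹ ∈ A.inertiaSubgroupIn K := by
  obtain ⟨τ', hτ', rfl⟩ := hτ
  refine ⟨⟨σ, hσ⟩ * τ' * ⟨σ, hσ⟩⁻¹, ?_, rfl⟩
  have hn : (A.inertiaSubgroup K).Normal := by
    unfold ValuationSubring.inertiaSubgroup
    infer_instance
  exact hn.conj_mem τ' hτ' ⟨σ, hσ⟩

/-- Two Frobenius elements differ by an element of the inertia group. -/
theorem h14_frobenius_inv_mul (A : ValuationSubring L) {σ₀ σ : L ≃ₐ[K] L} {q : ℕ}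
    (h₀ : A.IsFrobeniusAt σ₀ q) (h : A.IsFrobeniusAt σ q) :
    σ₀⁻¹ * σ ∈ A.inertiaSubgroupIn K := by
  refine ⟨⟨σ₀, h₀.mem_decompositionSubgroup⟩⁻¹ * ⟨σ, h.mem_decompositionSubgroup⟩, ?_, rfl⟩
  show _ ∈ MonoidHom.ker _
  rw [MonoidHom.mem_ker]
  ext x
  show (⟨σ₀, h₀.mem_decompositionSubgroup⟩⁻¹ * ⟨σ, h.mem_decompositionSubgroup⟩ :
    A.decompositionSubgroup K) • x = x
  rw [mul_smul, h.smul_residue_eq x, ← h₀.smul_residue_eq x, inv_smul_smul]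

end Frobenius

/-- **S37, assembled**: `StSpec N p →` the frozen statement. -/
theorem result_of (N p : ℕ) [NeZero N] (hspec : StSpec N p)
    (hcomm : ModularCurve.HeckeOperatorsCommuteBar N) :
    letI := ModularCurve.heckeModuleBar N
    ∀ (_ : SMulCommClass (AlgebraicClosure ℚ ≃ₐ[ℚ] AlgebraicClosure ℚ) ModularCurve.HeckeAlg
      (ModularCurve.JZero N)),
      ModularCurve.SpecializationExists (K := ℚ) (L := AlgebraicClosure ℚ) N p
        (ModularCurve.JZero N) := by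
  let _ := ModularCurve.heckeModuleBar N
  intro _inst ℓ hℓ hℓNp A hA
  obtain ⟨M, _, ρ, hinj, hI, σ₀, hσ₀, hES⟩ := hspec ℓ hℓ hℓNp A hA
  have hES' : ∀ x : JZero N,
      ρ (σ₀ • σ₀ • x - heckeGen ⟨ℓ, hℓ⟩ • (σ₀ • x) + ℓ • x) = 0 := by
    intro x
    have hgen : heckeGen ⟨ℓ, hℓ⟩ • (σ₀ • x) = heckeOperatorBar N ⟨ℓ, hℓ⟩ (σ₀ • x) :=
      heckeModuleBar_heckeGen_smul hcomm ⟨ℓ, hℓ⟩ (σ₀ • x)
    rw [hgen]
    exact hES x
  obtain ⟨J', i1, i2, sp, F, h1, h2, h3, h4, h5⟩ :=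
    h14_specialization (J := JZero N) ρ (A.inertiaSubgroupIn ℚ) σ₀
      (fun τ hτ => h14_conj_mem_inertia A hσ₀.mem_decompositionSubgroup hτ)
      (heckeGen ⟨ℓ, hℓ⟩) ℓ p hinj hI hES'
  refine ⟨J', i1, i2, sp, F, ⟨h1, h2, ?_, h4⟩, h5⟩
  intro σ hσ x
  have hτ := h14_frobenius_inv_mul A hσ₀ hσ
  have e : σ • x = σ₀ • ((σ₀⁻¹ * σ) • x) := by
    rw [← mul_smul, mul_inv_cancel_left]
  rw [e, h3, h2 _ hτ]

end Fermat.Agent.S37x.Asm
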