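import Mathlib
import Fermat.Prelude.Def_ModularCurve_HeckeModule
import Fermat.Prelude.Def_ModularCurve_ReductionModL
import Fermat.Prelude.Def_EllipticCurve_FrobeniusTrace

/-!
# S37, layer 2: the exact leaves (helper14, chief)

Vocabulary: `L = ℚ̄`, `F_N = modularFunctionFieldBar N ⊆ L((q))`, `A` a valuation ring of `L` over
`ℓ`, `k = ResidueField A`, `F̄_N = modularFunctionFieldFullC k N ⊆ k((q))`,
`red = coeffMap (residue A)`, `α, β : F_N → F_{Nℓ}` (`α` the inclusion, `β : q ↦ q^ℓ`),
`jL N : F_N` and `jk A N : F̄_N` the `j`-functions.  "The value of `g` at `P` is `a`" is spelled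
`0 < P.ord (g - algebraMap _ _ a)`.

* `StFF N ℓ`           : `HeckeInputsAlong ℚ̄ N ℓ` (otherwise `T_ℓ = 0` by definition);
* `StNorm N ℓ A`       : the `q`-expansion of `Norm_α (β y)` for an integral `y`, and its
                         reduction `ȳ(q^ℓ) · ȳ^φ` (`φ` the coefficientwise Frobenius);
* `StKron N ℓ A`       : Kronecker's congruence for the `j`-values of a place of `F_{Nℓ}`;
* `StU1 N A r`         : a place reduction `r` is compatible with the `j`-values;
* `StSep N A r`        : the moving lemma's input: functions with a zero or pole at `P` whose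
                         other zeros and poles reduce away from finitely many `j̄`-values;
* existence of `r`     : the prelude's `ReductionInputsModL A N`.
-/

set_option autoImplicit false
set_option synthInstance.maxHeartbeats 400000
set_option maxHeartbeats 1000000

open HahnSeries IntermediateField AlgebraicCurve ModularCurve

noncomputable section

namespace Fermat.Agent.S37x.Asm

section Vocabulary

theorem jqModC_mem_bar (N : ℕ) :
    jqModC (AlgebraicClosure ℚ) ∈ modularFunctionFieldBar N := by
  have h : jqModC ℚ ∈ modularFunctionFieldFull N := jqModC_mem_full ℚ N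
  have := coeffEmb_mem_laurentBaseChange (AlgebraicClosure ℚ) h
  rwa [show coeffEmb (AlgebraicClosure ℚ) (jqModC ℚ) = jqModC (AlgebraicClosure ℚ) from
    coeffMap_jqModC _] at this

/-- The `j`-function in `F_N = modularFunctionFieldBar N`. -/
def jL (N : ℕ) : modularFunctionFieldBar N := ⟨jqModC (AlgebraicClosure ℚ), jqModC_mem_bar N⟩

/-- The `j`-function in `F̄_N = modularFunctionFieldFullC k N`. -/
def jk (A : ValuationSubring (AlgebraicClosure ℚ)) (N : ℕ) :
    modularFunctionFieldFullC (IsLocalRing.ResidueField A) N :=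
  ⟨jqModC (IsLocalRing.ResidueField A), jqModC_mem_full _ N⟩

/-- The residue class of an element of `A`. -/
def res (A : ValuationSubring (AlgebraicClosure ℚ)) (a : AlgebraicClosure ℚ) (ha : a ∈ A) :
    IsLocalRing.ResidueField A :=
  IsLocalRing.residue A ⟨a, ha⟩

/-- `P` lies over the value `a` of `j`. -/
def JAt {N : ℕ} (P : Place (AlgebraicClosure ℚ) (modularFunctionFieldBar N))
    (a : AlgebraicClosure ℚ) : Prop :=
  0 < P.ord (jL N - algebraMap (AlgebraicClosure ℚ) (modularFunctionFieldBar N) a)

/-- `P` reduces to a cusp: `j` has a pole at `P`, or its value at `P` is not in `A`. -/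
def JCusp (A : ValuationSubring (AlgebraicClosure ℚ)) {N : ℕ}
    (P : Place (AlgebraicClosure ℚ) (modularFunctionFieldBar N)) : Prop :=
  P.ord (jL N) < 0 ∨ ∃ a : AlgebraicClosure ℚ, a ∉ A ∧ JAt P a

/-- `Q` lies over the value `c` of `j̄`. -/
def JbarAt {A : ValuationSubring (AlgebraicClosure ℚ)} {N : ℕ}
    (Q : Place (IsLocalRing.ResidueField A)
      (modularFunctionFieldFullC (IsLocalRing.ResidueField A) N))
    (c : IsLocalRing.ResidueField A) : Prop :=
  0 < Q.ord (jk A N - algebraMap (IsLocalRing.ResidueField A)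
    (modularFunctionFieldFullC (IsLocalRing.ResidueField A) N) c)

end Vocabulary

section Leaves

variable (N : ℕ) [NeZero N]

/-- **[FF]** the Hecke inputs at `ℓ`. -/
def StFF (ℓ : ℕ) [NeZero ℓ] : Prop := HeckeInputsAlong (AlgebraicClosure ℚ) N ℓ

/-- **[NORM]** for an integral `y`, the norm of `y(q^ℓ)` down to `F_N` is integral, with
reduction `ȳ(q^ℓ) · ȳ^φ`. -/
def StNorm (ℓ : ℕ) [NeZero ℓ] (A : ValuationSubring (AlgebraicClosure ℚ)) : Prop :=
  ∀ φ : IsLocalRing.ResidueField A →+* IsLocalRing.ResidueField A, (∀ x, φ x = x ^ ℓ) →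
    ∀ (y : LaurentSeries A) (hy : coeffMap A.subtype y ∈ modularFunctionFieldBar N),
      ∃ (Y : LaurentSeries A) (hY : coeffMap A.subtype Y ∈ modularFunctionFieldBar N),
        (letI := algebraAlong (heckeAlphaBar (AlgebraicClosure ℚ) N ℓ);
          Algebra.norm (modularFunctionFieldBar N)
            (heckeBetaBar (AlgebraicClosure ℚ) N ℓ ⟨coeffMap A.subtype y, hy⟩)) =
          (⟨coeffMap A.subtype Y, hY⟩ : modularFunctionFieldBar N) ∧
        coeffMap (IsLocalRing.residue A) Y =
          qExpand (IsLocalRing.ResidueField A) ℓ (coeffMap (IsLocalRing.residue A) y) *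
            coeffMap φ (coeffMap (IsLocalRing.residue A) y)

/-- **[KRON]** Kronecker's congruence for the `j`-values at a place `W` of `F_{Nℓ}`: if
`j(q^ℓ)` has the value `b ∈ A` at `W`, then `j` has a value `a ∈ A` at `W` with
`ā^ℓ = b̄` or `ā = b̄^ℓ`; if `W` is a cusp for `j(q^ℓ)`, it is a cusp for `j`. -/
def StKron (ℓ : ℕ) [NeZero ℓ] (A : ValuationSubring (AlgebraicClosure ℚ)) : Prop :=
  ∀ W : Place (AlgebraicClosure ℚ) (modularFunctionFieldBar (N * ℓ)),
    (∀ (b : AlgebraicClosure ℚ) (hb : b ∈ A),
      0 < W.ord (heckeBetaBar (AlgebraicClosure ℚ) N ℓ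
        (jL N - algebraMap (AlgebraicClosure ℚ) (modularFunctionFieldBar N) b)) →
      ∃ (a : AlgebraicClosure ℚ) (ha : a ∈ A),
        0 < W.ord (heckeAlphaBar (AlgebraicClosure ℚ) N ℓ
          (jL N - algebraMap (AlgebraicClosure ℚ) (modularFunctionFieldBar N) a)) ∧
        (res A a ha ^ ℓ = res A b hb ∨ res A a ha = res A b hb ^ ℓ)) ∧
    ((W.ord (heckeBetaBar (AlgebraicClosure ℚ) N ℓ (jL N)) < 0 ∨
        ∃ b : AlgebraicClosure ℚ, b ∉ A ∧
          0 < W.ord (heckeBetaBar (AlgebraicClosure ℚ) N ℓ
            (jL N - algebraMap (AlgebraicClosure ℚ) (modularFunctionFieldBar N) b))) →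
      (W.ord (heckeAlphaBar (AlgebraicClosure ℚ) N ℓ (jL N)) < 0 ∨
        ∃ a : AlgebraicClosure ℚ, a ∉ A ∧
          0 < W.ord (heckeAlphaBar (AlgebraicClosure ℚ) N ℓ
            (jL N - algebraMap (AlgebraicClosure ℚ) (modularFunctionFieldBar N) a))))

variable {N} in
/-- **[U1]** a place reduction is compatible with the values of `j`. -/
def StU1 (A : ValuationSubring (AlgebraicClosure ℚ))
    (r : Place (AlgebraicClosure ℚ) (modularFunctionFieldBar N) →
      Place (IsLocalRing.ResidueField A)
        (modularFunctionFieldFullC (IsLocalRing.ResidueField A) N)) : Prop :=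
  (∀ (P : Place (AlgebraicClosure ℚ) (modularFunctionFieldBar N)) (a : AlgebraicClosure ℚ)
      (ha : a ∈ A), JAt P a → JbarAt (r P) (res A a ha)) ∧
    ∀ P : Place (AlgebraicClosure ℚ) (modularFunctionFieldBar N), JCusp A P →
      (r P).ord (jk A N) < 0

variable {N} in
/-- **[SEP]** the separation property of a place reduction: for every place `P` there are
functions with a zero or pole at `P` all of whose other zeros and poles reduce away from
finitely many prescribed values of `j̄` (resp. away from the cusps). -/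
def StSep (A : ValuationSubring (AlgebraicClosure ℚ))
    (r : Place (AlgebraicClosure ℚ) (modularFunctionFieldBar N) →
      Place (IsLocalRing.ResidueField A)
        (modularFunctionFieldFullC (IsLocalRing.ResidueField A) N)) : Prop :=
  (∀ P : Place (AlgebraicClosure ℚ) (modularFunctionFieldBar N), ¬ JCusp A P →
      ∀ T : Finset (IsLocalRing.ResidueField A),
        ∃ f : modularFunctionFieldBar N, f ≠ 0 ∧ P.ord f ≠ 0 ∧
          ∀ P' : Place (AlgebraicClosure ℚ) (modularFunctionFieldBar N), P' ≠ P →
            P'.ord f ≠ 0 → ∀ c ∈ T, ¬ JbarAt (r P') c) ∧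
    ∀ P : Place (AlgebraicClosure ℚ) (modularFunctionFieldBar N), JCusp A P →
      ∃ f : modularFunctionFieldBar N, f ≠ 0 ∧ P.ord f ≠ 0 ∧
        ∀ P' : Place (AlgebraicClosure ℚ) (modularFunctionFieldBar N), P' ≠ P →
          P'.ord f ≠ 0 → ¬ (r P').ord (jk A N) < 0

/-- **[RED]** existence of a place reduction with the two properties `[U1]`, `[SEP]`. -/
def StRed (A : ValuationSubring (AlgebraicClosure ℚ)) : Prop :=
  ∃ r : Place (AlgebraicClosure ℚ) (modularFunctionFieldBar N) →
      Place (IsLocalRing.ResidueField A)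
        (modularFunctionFieldFullC (IsLocalRing.ResidueField A) N),
    IsPlaceReductionModL A N r ∧ PrincipalGeneratedByIntegral A (IsLocalRing.residue A) N ∧
      StU1 A r ∧ StSep A r

end Leaves

end Fermat.Agent.S37x.Asm
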