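import Fermat.Agent.S37x.Asm.DefsLeaves

/-!
# S37, layer 2b: descent of the place reduction from an auxiliary level `M` to the level `N`
(helper14, chief)

S18 proves (SM) only at auxiliary levels `M` (`N ∣ M`, `ℓ ∤ M`).  The place reduction at level `N`
is obtained from the one at level `M`: `r_N P := (r_M P̃)|_{F̄_N}` for any place `P̃` of `F_M`
above `P`.

* `StSepOne A r`   : `StSep` with a zero of order exactly `1` at `P`;
* `StRedOne M A`   : existence of a place reduction at level `M` with `StU1` and `StSepOne`;
* `incL`, `incK`   : the inclusions `F_N → F_M` and `F̄_N → F̄_M`;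
* `StFFL N M`      : function-field theory of `F_M / F_N` over `ℚ̄` (integral, finite,
                     principal divisors, fundamental identity, norm formula, all places of
                     degree one);
* `StFFk N M A`    : function-field theory of `F̄_M / F̄_N` over `k` (integral, principal
                     divisors, fundamental identity) and the equality of the two degrees.
-/

set_option autoImplicit false
set_option synthInstance.maxHeartbeats 400000
set_option maxHeartbeats 1000000
set_option linter.unusedSectionVars false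

open HahnSeries IntermediateField AlgebraicCurve ModularCurve

noncomputable section

namespace Fermat.Agent.S37x.Asm

section Inclusions

variable (N M : ℕ) [NeZero N] [NeZero M]

theorem bar_le_bar (h : N ∣ M) : modularFunctionFieldBar N ≤ modularFunctionFieldBar M := by
  show laurentBaseChange (AlgebraicClosure ℚ) (modularFunctionFieldFull N) ≤
    laurentBaseChange (AlgebraicClosure ℚ) (modularFunctionFieldFull M)
  rw [laurentBaseChange, IntermediateField.adjoin_le_iff]
  rintro _ ⟨y, hy, rfl⟩
  exact coeffEmb_mem_laurentBaseChange (AlgebraicClosure ℚ) (full_degeneracy_le h hy)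

/-- The inclusion `F_N → F_M` over `ℚ̄`. -/
def incL (h : N ∣ M) :
    modularFunctionFieldBar N →ₐ[AlgebraicClosure ℚ] modularFunctionFieldBar M :=
  IntermediateField.inclusion (bar_le_bar N M h)

/-- The inclusion `F̄_N → F̄_M` over `k`. -/
def incK (k : Type*) [Field k] (h : N ∣ M) :
    modularFunctionFieldFullC k N →ₐ[k] modularFunctionFieldFullC k M :=
  IntermediateField.inclusion (full_degeneracyC_le k h)

/-- **[FFL]** function-field theory of `F_M / F_N` over `ℚ̄`. -/
def StFFL (h : N ∣ M) : Prop :=
  ∃ (hint : (incL N M h).toRingHom.IsIntegral)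
    (_ : HasPrincipalDivisors (AlgebraicClosure ℚ) (modularFunctionFieldBar M))
    (hfin : FiniteAlong (AlgebraicClosure ℚ) (incL N M h)),
    FundamentalIdentityAlong (AlgebraicClosure ℚ) (incL N M h) hint ∧
      NormFormulaAlong (AlgebraicClosure ℚ) (incL N M h) hfin ∧
      (∀ P : Place (AlgebraicClosure ℚ) (modularFunctionFieldBar M), P.deg = 1) ∧
      ∀ P : Place (AlgebraicClosure ℚ) (modularFunctionFieldBar N), P.deg = 1

/-- **[FFk]** function-field theory of `F̄_M / F̄_N` over `k`, and the equality of the degrees
in characteristic `0` and `ℓ`. -/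
def StFFk (A : ValuationSubring (AlgebraicClosure ℚ)) (h : N ∣ M) : Prop :=
  ∃ (hint : (incK N M (IsLocalRing.ResidueField A) h).toRingHom.IsIntegral)
    (_ : HasPrincipalDivisors (IsLocalRing.ResidueField A)
      (modularFunctionFieldFullC (IsLocalRing.ResidueField A) M))
    (_ : HasPrincipalDivisors (IsLocalRing.ResidueField A)
      (modularFunctionFieldFullC (IsLocalRing.ResidueField A) N)),
    FundamentalIdentityAlong (IsLocalRing.ResidueField A)
        (incK N M (IsLocalRing.ResidueField A) h) hint ∧
      finrankAlong (IsLocalRing.ResidueField A) (incK N M (IsLocalRing.ResidueField A) h) =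
        finrankAlong (AlgebraicClosure ℚ) (incL N M h) ∧
      (∀ Q : Place (IsLocalRing.ResidueField A)
          (modularFunctionFieldFullC (IsLocalRing.ResidueField A) M), Q.deg = 1) ∧
      ∀ Q : Place (IsLocalRing.ResidueField A)
          (modularFunctionFieldFullC (IsLocalRing.ResidueField A) N),
        Q.deg = 1 ∧ ∃ Q' : Place (IsLocalRing.ResidueField A)
          (modularFunctionFieldFullC (IsLocalRing.ResidueField A) M),
          Q'.restrictAlong (incK N M (IsLocalRing.ResidueField A) h) hint = Q

end Inclusions

section Leaves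

variable (N : ℕ) [NeZero N]

variable {N} in
/-- **[SEP-ONE]** `StSep` with a zero of order exactly one at `P`. -/
def StSepOne (A : ValuationSubring (AlgebraicClosure ℚ))
    (r : Place (AlgebraicClosure ℚ) (modularFunctionFieldBar N) →
      Place (IsLocalRing.ResidueField A)
        (modularFunctionFieldFullC (IsLocalRing.ResidueField A) N)) : Prop :=
  (∀ P : Place (AlgebraicClosure ℚ) (modularFunctionFieldBar N), ¬ JCusp A P →
      ∀ T : Finset (IsLocalRing.ResidueField A),
        ∃ f : modularFunctionFieldBar N, f ≠ 0 ∧ P.ord f = 1 ∧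
          ∀ P' : Place (AlgebraicClosure ℚ) (modularFunctionFieldBar N), P' ≠ P →
            P'.ord f ≠ 0 → ∀ c ∈ T, ¬ JbarAt (r P') c) ∧
    ∀ P : Place (AlgebraicClosure ℚ) (modularFunctionFieldBar N), JCusp A P →
      ∃ f : modularFunctionFieldBar N, f ≠ 0 ∧ P.ord f = 1 ∧
        ∀ P' : Place (AlgebraicClosure ℚ) (modularFunctionFieldBar N), P' ≠ P →
          P'.ord f ≠ 0 → ¬ (r P').ord (jk A N) < 0

variable {N} in
theorem StSepOne.stSep {A : ValuationSubring (AlgebraicClosure ℚ)}
    {r : Place (AlgebraicClosure ℚ) (modularFunctionFieldBar N) →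
      Place (IsLocalRing.ResidueField A)
        (modularFunctionFieldFullC (IsLocalRing.ResidueField A) N)}
    (h : StSepOne A r) : StSep A r := by
  refine ⟨fun P hP T => ?_, fun P hP => ?_⟩
  · obtain ⟨f, hf, hPf, hrest⟩ := h.1 P hP T
    exact ⟨f, hf, by rw [hPf]; exact one_ne_zero, hrest⟩
  · obtain ⟨f, hf, hPf, hrest⟩ := h.2 P hP
    exact ⟨f, hf, by rw [hPf]; exact one_ne_zero, hrest⟩

/-- **[RED-ONE]** existence of a place reduction with `[U1]` and `[SEP-ONE]` (the output of
`[RED-M]` at the auxiliary levels, and of `[RED-DESC]` at every level). -/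
def StRedOne (A : ValuationSubring (AlgebraicClosure ℚ)) : Prop :=
  ∃ r : Place (AlgebraicClosure ℚ) (modularFunctionFieldBar N) →
      Place (IsLocalRing.ResidueField A)
        (modularFunctionFieldFullC (IsLocalRing.ResidueField A) N),
    IsPlaceReductionModL A N r ∧ StU1 A r ∧ StSepOne A r

theorem stRed_of_stRedOne (A : ValuationSubring (AlgebraicClosure ℚ))
    (hgen : PrincipalGeneratedByIntegral A (IsLocalRing.residue A) N) (h : StRedOne N A) :
    StRed N A := by
  obtain ⟨r, hr, hU, hS⟩ := h
  exact ⟨r, hr, hgen, hU, hS.stSep⟩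

end Leaves

end Fermat.Agent.S37x.Asm
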