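import Fermat.Prelude.Def_ModularCurve_HeckeModule

/-!
# S37 (Eichler–Shimura congruence relation, `SpecializationExists` for `J₀(N)`): top interface

Frozen statement: for `hcomm : HeckeOperatorsCommuteBar N` and the Hecke module structure
`heckeModuleBar N` on `JZero N = Pic⁰` of the function field of `X₀(N)` over `ℚ̄`, commuting with
the Galois action: for every prime `ℓ ∤ N p` and every valuation ring `A` of `ℚ̄` over `ℓ` there
are `J'`, a Hecke-equivariant `sp : JZero N →+ J'`, and `F : J' →+ J'` with `sp ∘ τ = sp` on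
inertia, `sp ∘ σ = F ∘ sp` for Frobenius elements, `sp` injective on `p`-power torsion and
`F² - T_ℓ F + ℓ = 0` on `J'`.

`StSpec` is the only non-formal input: a reduction map `ρ` out of `JZero N` (into any abelian
group; no Hecke structure on the target, no Frobenius endomorphism of the target is required) which
is injective on `p`-power torsion, inertia-invariant and kills `σ₀² x - T_ℓ σ₀ x + ℓ x` for one
Frobenius element `σ₀`.  `result_of` (in `Asm/H14_Top.lean`): `StSpec N p →` the frozen statement.
-/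

set_option autoImplicit false

open ModularCurve

noncomputable section

namespace Fermat.Agent.S37x.Asm

/-- **[SPEC]** the reduction map with the Eichler–Shimura congruence, in the weakest form that
implies `SpecializationExists`. -/
def StSpec (N p : ℕ) [NeZero N] : Prop :=
  ∀ ℓ : ℕ, (hℓ : ℓ.Prime) → ¬ ℓ ∣ N * p →
    ∀ A : ValuationSubring (AlgebraicClosure ℚ), A.LiesOverPrime ℓ →
      ∃ (M : Type) (_ : AddCommGroup M) (ρ : JZero N →+ M),
        (∀ x : JZero N, (∃ n : ℕ, p ^ n • x = 0) → ρ x = 0 → x = 0) ∧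
        (∀ τ ∈ A.inertiaSubgroupIn ℚ, ∀ x : JZero N, ρ (τ • x) = ρ x) ∧
        ∃ σ₀ : AlgebraicClosure ℚ ≃ₐ[ℚ] AlgebraicClosure ℚ, A.IsFrobeniusAt σ₀ ℓ ∧
          ∀ x : JZero N,
            ρ (σ₀ • σ₀ • x - heckeOperatorBar N ⟨ℓ, hℓ⟩ (σ₀ • x) + ℓ • x) = 0

end Fermat.Agent.S37x.Asm
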