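import Mathlib
import Fermat.Prelude.Def_HeckeGalois_EichlerShimura

/-!
# S37 (Eichler-Shimura congruence, packaged as `SpecializationExists`): the formal leaf (helper13)

`SpecializationExists N p J` asks, for every prime `ℓ ∤ N p` and every valuation subring `A` of
`L` over `ℓ`, for a `HeckeAlg`-module `J'`, an additive `sp : J → J'` and an additive
`F : J' → J'` with

* `hecke_comm`, `inertia_comm`, `frobenius_comm` (for ALL Frobenius lifts),
* `injective_torsion` (`sp` injective on `p`-power torsion),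
* `SpecialFibreRelation` (`F² - T_ℓ F + ℓ = 0` on `J'`).

Every admissible `(J', sp, F)` kills `H₀ := ⟨τ x - x, (σ₀² - T_ℓ σ₀ + ℓ) y⟩` (`τ` in inertia, `σ₀`
a Frobenius lift), and `J' := J ⧸ H₀`, `sp := mkQ`, `F := σ₀` satisfies all clauses except
`injective_torsion` BY CONSTRUCTION.  Hence (`specializationExists_of_rho`):

`SpecializationExists` follows from the existence of ONE additive map `ρ : J → X` which is
invariant under inertia, kills `(σ₀² - T_ℓ σ₀ + ℓ) y` and is injective on `p`-power torsion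
(in the application: `ρ =` reduction of divisor classes modulo `ℓ`; only the single Hecke
operator `T_ℓ` has to be compared with Frobenius on the special fibre).
-/

set_option autoImplicit false

open ModularCurve

noncomputable section

namespace Fermat.Agent.S37x.Asm.H13

section Inertia

variable {K L : Type*} [Field K] [Field L] [Algebra K L]

/-- Membership in the inertia subgroup (as a subgroup of the Galois group). -/
theorem mem_inertiaSubgroupIn_iff (A : ValuationSubring L) (τ : L ≃ₐ[K] L) :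
    τ ∈ A.inertiaSubgroupIn K ↔
      ∃ hτ : τ ∈ A.decompositionSubgroup K,
        ∀ x : IsLocalRing.ResidueField A, (⟨τ, hτ⟩ : A.decompositionSubgroup K) • x = x := by
  unfold ValuationSubring.inertiaSubgroupIn
  constructor
  · rintro ⟨t, ht, rfl⟩
    refine ⟨t.2, fun x => ?_⟩
    have h1 : MulSemiringAction.toRingAut (A.decompositionSubgroup K)
        (IsLocalRing.ResidueField A) t = 1 := ht
    have h2 := congrArg (fun f => f x) h1
    exact h2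
  · rintro ⟨hτ, h⟩
    refine ⟨⟨τ, hτ⟩, ?_, rfl⟩
    change MulSemiringAction.toRingAut (A.decompositionSubgroup K)
        (IsLocalRing.ResidueField A) ⟨τ, hτ⟩ = 1
    ext x
    exact h x

/-- Two Frobenius lifts differ by an element of inertia. -/
theorem inv_mul_mem_inertia (A : ValuationSubring L) {σ₀ σ : L ≃ₐ[K] L} {q : ℕ}
    (h₀ : A.IsFrobeniusAt σ₀ q) (h : A.IsFrobeniusAt σ q) :
    σ₀⁻¹ * σ ∈ A.inertiaSubgroupIn K := by
  obtain ⟨hσ₀, h₀'⟩ := h₀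
  obtain ⟨hσ, h'⟩ := h
  rw [mem_inertiaSubgroupIn_iff]
  refine ⟨(A.decompositionSubgroup K).mul_mem ((A.decompositionSubgroup K).inv_mem hσ₀) hσ,
    fun x => ?_⟩
  have e : (⟨σ₀⁻¹ * σ, (A.decompositionSubgroup K).mul_mem
      ((A.decompositionSubgroup K).inv_mem hσ₀) hσ⟩ : A.decompositionSubgroup K) =
      (⟨σ₀, hσ₀⟩ : A.decompositionSubgroup K)⁻¹ * ⟨σ, hσ⟩ := rfl
  rw [e, mul_smul, h' x, ← h₀' x, inv_smul_smul]

/-- Inertia is normalised by the decomposition group. -/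
theorem conj_mem_inertia (A : ValuationSubring L) {σ τ : L ≃ₐ[K] L}
    (hσ : σ ∈ A.decompositionSubgroup K) (hτ : τ ∈ A.inertiaSubgroupIn K) :
    σ * τ * σ⁻¹ ∈ A.inertiaSubgroupIn K := by
  rw [mem_inertiaSubgroupIn_iff] at hτ ⊢
  obtain ⟨hτ, h⟩ := hτ
  have hmem : σ * τ * σ⁻¹ ∈ A.decompositionSubgroup K :=
    (A.decompositionSubgroup K).mul_mem ((A.decompositionSubgroup K).mul_mem hσ hτ)
      ((A.decompositionSubgroup K).inv_mem hσ)
  refine ⟨hmem, fun x => ?_⟩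
  have e : (⟨σ * τ * σ⁻¹, hmem⟩ : A.decompositionSubgroup K) =
      (⟨σ, hσ⟩ : A.decompositionSubgroup K) * ⟨τ, hτ⟩ * (⟨σ, hσ⟩ : A.decompositionSubgroup K)⁻¹ :=
    rfl
  rw [e, mul_smul, mul_smul, h, smul_inv_smul]

end Inertia


section Formal

variable {K L : Type*} [Field K] [Field L] [Algebra K L]
variable (J : Type) [AddCommGroup J] [Module HeckeAlg J]
  [DistribMulAction (L ≃ₐ[K] L) J] [SMulCommClass (L ≃ₐ[K] L) HeckeAlg J]

/-- The Eichler–Shimura operator `σ₀² - t σ₀ + ℓ`. -/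
def esOp (σ₀ : L ≃ₐ[K] L) (t : HeckeAlg) (ℓ : ℕ) (y : J) : J :=
  σ₀ • σ₀ • y - t • (σ₀ • y) + ℓ • y

/-- The generators of the minimal kernel: `τ x - x` (`τ` in inertia) and `ES y`. -/
def gens (A : ValuationSubring L) (σ₀ : L ≃ₐ[K] L) (t : HeckeAlg) (ℓ : ℕ) : Set J :=
  {z | ∃ τ ∈ A.inertiaSubgroupIn K, ∃ x : J, z = τ • x - x} ∪ {z | ∃ y : J, z = esOp J σ₀ t ℓ y}

/-- The minimal kernel `H₀` of a specialization. -/
def H0 (A : ValuationSubring L) (σ₀ : L ≃ₐ[K] L) (t : HeckeAlg) (ℓ : ℕ) :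
    Submodule HeckeAlg J :=
  Submodule.span HeckeAlg (gens J A σ₀ t ℓ)

/-- The Galois action as a `HeckeAlg`-linear map. -/
def galLin (σ : L ≃ₐ[K] L) : J →ₗ[HeckeAlg] J where
  toFun x := σ • x
  map_add' := smul_add σ
  map_smul' t x := smul_comm σ t x

@[simp] theorem galLin_apply (σ : L ≃ₐ[K] L) (x : J) : galLin J σ x = σ • x := rfl

variable {J}

omit [Module HeckeAlg J] [SMulCommClass (L ≃ₐ[K] L) HeckeAlg J] in
theorem smul_nsmul_comm (σ : L ≃ₐ[K] L) (n : ℕ) (y : J) : σ • (n • y) = n • (σ • y) :=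
  map_nsmul (DistribSMul.toAddMonoidHom J σ) n y

theorem smul_esOp (σ₀ : L ≃ₐ[K] L) (t : HeckeAlg) (ℓ : ℕ) (y : J) :
    σ₀ • esOp J σ₀ t ℓ y = esOp J σ₀ t ℓ (σ₀ • y) := by
  unfold esOp
  rw [smul_add, smul_sub, smul_comm σ₀ t, smul_nsmul_comm]

theorem hecke_smul_esOp (σ₀ : L ≃ₐ[K] L) (t : HeckeAlg) (ℓ : ℕ) (s : HeckeAlg) (y : J) :
    s • esOp J σ₀ t ℓ y = esOp J σ₀ t ℓ (s • y) := by
  unfold esOp
  have h1 : s • (σ₀ • σ₀ • y) = σ₀ • σ₀ • (s • y) := by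
    rw [← smul_comm σ₀ s, ← smul_comm σ₀ s]
  have h2 : s • (t • (σ₀ • y)) = t • (σ₀ • (s • y)) := by
    rw [smul_comm s t, ← smul_comm σ₀ s]
  have h3 : s • (ℓ • y) = ℓ • (s • y) := smul_comm s ℓ y
  rw [smul_add, smul_sub, h1, h2, h3]

theorem hecke_smul_mem_gens (A : ValuationSubring L) (σ₀ : L ≃ₐ[K] L) (t : HeckeAlg) (ℓ : ℕ)
    (s : HeckeAlg) {z : J} (hz : z ∈ gens J A σ₀ t ℓ) : s • z ∈ gens J A σ₀ t ℓ := by
  rcases hz with ⟨τ, hτ, x, rfl⟩ | ⟨y, rfl⟩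
  · left
    exact ⟨τ, hτ, s • x, by rw [smul_sub, smul_comm τ s]⟩
  · right
    exact ⟨s • y, hecke_smul_esOp σ₀ t ℓ s y⟩

theorem gal_smul_mem_gens (A : ValuationSubring L) {σ₀ : L ≃ₐ[K] L}
    (hσ₀ : σ₀ ∈ A.decompositionSubgroup K) (t : HeckeAlg) (ℓ : ℕ)
    {z : J} (hz : z ∈ gens J A σ₀ t ℓ) : σ₀ • z ∈ gens J A σ₀ t ℓ := by
  rcases hz with ⟨τ, hτ, x, rfl⟩ | ⟨y, rfl⟩
  · left
    refine ⟨σ₀ * τ * σ₀⁻¹, conj_mem_inertia A hσ₀ hτ, σ₀ • x, ?_⟩
    rw [smul_sub, mul_smul, mul_smul, inv_smul_smul]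
  · right
    exact ⟨σ₀ • y, smul_esOp σ₀ t ℓ y⟩

theorem galLin_H0_le (A : ValuationSubring L) {σ₀ : L ≃ₐ[K] L}
    (hσ₀ : σ₀ ∈ A.decompositionSubgroup K) (t : HeckeAlg) (ℓ : ℕ) :
    H0 J A σ₀ t ℓ ≤ (H0 J A σ₀ t ℓ).comap (galLin J σ₀) := by
  unfold H0
  rw [Submodule.span_le]
  intro z hz
  exact Submodule.subset_span (gal_smul_mem_gens A hσ₀ t ℓ hz)

/-- An additive map killing the generators kills `H₀`. -/
theorem rho_eq_zero_of_mem_H0 {X : Type*} [AddCommGroup X] (ρ : J →+ X)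
    (A : ValuationSubring L) (σ₀ : L ≃ₐ[K] L) (t : HeckeAlg) (ℓ : ℕ)
    (hρ : ∀ z ∈ gens J A σ₀ t ℓ, ρ z = 0) {z : J} (hz : z ∈ H0 J A σ₀ t ℓ) : ρ z = 0 := by
  have key : ∀ s : HeckeAlg, ρ (s • z) = 0 := by
    unfold H0 at hz
    induction hz using Submodule.span_induction with
    | mem z hz => exact fun s => hρ _ (hecke_smul_mem_gens A σ₀ t ℓ s hz)
    | zero => intro s; rw [smul_zero, map_zero]
    | add z w _ _ hz hw => intro s; rw [smul_add, map_add, hz s, hw s, add_zero]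
    | smul r z _ hz => intro s; rw [← mul_smul]; exact hz (s * r)
  simpa using key 1

/-- **(A) the formal leaf**: `SpecializationExists` follows from the existence, for every
Frobenius lift `σ₀`, of an additive map `ρ` on `J` which is invariant under inertia, kills the
image of the Eichler–Shimura operator `σ₀² - T_ℓ σ₀ + ℓ` and is injective on `p`-power torsion.
(`J' := J ⧸ H₀`, `sp := mkQ`, `F :=` the map induced by `σ₀`.) -/
theorem specializationExists_of_rho (N p : ℕ)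
    (hfrob : ∀ ℓ : ℕ, ℓ.Prime → ∀ A : ValuationSubring L, A.LiesOverPrime ℓ →
      ∃ σ : L ≃ₐ[K] L, A.IsFrobeniusAt σ ℓ)
    (H : ∀ (ℓ : ℕ) (hℓ : ℓ.Prime), ¬ ℓ ∣ N * p → ∀ A : ValuationSubring L, A.LiesOverPrime ℓ →
      ∀ σ₀ : L ≃ₐ[K] L, A.IsFrobeniusAt σ₀ ℓ →
      ∃ (X : Type) (_ : AddCommGroup X) (ρ : J →+ X),
        (∀ τ ∈ A.inertiaSubgroupIn K, ∀ x : J, ρ (τ • x) = ρ x) ∧
        (∀ y : J, ρ (σ₀ • σ₀ • y - heckeGen ⟨ℓ, hℓ⟩ • (σ₀ • y) + ℓ • y) = 0) ∧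
        (∀ x : J, (∃ n : ℕ, p ^ n • x = 0) → ρ x = 0 → x = 0)) :
    SpecializationExists (K := K) (L := L) N p J := by
  intro ℓ hℓ hℓNp A hA
  obtain ⟨σ₀, hσ₀⟩ := hfrob ℓ hℓ A hA
  obtain ⟨X, _, ρ, hρI, hρES, hρinj⟩ := H ℓ hℓ hℓNp A hA σ₀ hσ₀
  have hσ₀D : σ₀ ∈ A.decompositionSubgroup K := hσ₀.mem_decompositionSubgroup
  set t : HeckeAlg := heckeGen ⟨ℓ, hℓ⟩ with ht
  set H₀ : Submodule HeckeAlg J := H0 J A σ₀ t ℓ with hH₀
  have hρgens : ∀ z ∈ gens J A σ₀ t ℓ, ρ z = 0 := by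
    rintro z (⟨τ, hτ, x, rfl⟩ | ⟨y, rfl⟩)
    · rw [map_sub, hρI τ hτ x, sub_self]
    · exact hρES y
  let F : (J ⧸ H₀) →ₗ[HeckeAlg] (J ⧸ H₀) := H₀.mapQ H₀ (galLin J σ₀) (galLin_H0_le A hσ₀D t ℓ)
  refine ⟨J ⧸ H₀, inferInstance, inferInstance, H₀.mkQ.toAddMonoidHom, F.toAddMonoidHom,
    ⟨?_, ?_, ?_, ?_⟩, ?_⟩
  · -- hecke_comm
    intro T x
    exact map_smul H₀.mkQ T x
  · -- inertia_comm
    intro τ hτ x
    change H₀.mkQ (τ • x) = H₀.mkQ x
    rw [← sub_eq_zero, ← map_sub, Submodule.mkQ_apply, Submodule.Quotient.mk_eq_zero]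
    exact Submodule.subset_span (Or.inl ⟨τ, hτ, x, rfl⟩)
  · -- frobenius_comm
    intro σ hσ x
    change H₀.mkQ (σ • x) = F (H₀.mkQ x)
    have hF : F (H₀.mkQ x) = H₀.mkQ (σ₀ • x) := rfl
    rw [hF, ← sub_eq_zero, ← map_sub, Submodule.mkQ_apply, Submodule.Quotient.mk_eq_zero]
    have hτ := inv_mul_mem_inertia A hσ₀ hσ
    have e : σ • x - σ₀ • x = σ₀ • ((σ₀⁻¹ * σ) • x - x) := by
      rw [smul_sub, ← mul_smul, mul_inv_cancel_left]
    rw [e]
    exact galLin_H0_le A hσ₀D t ℓ (Submodule.subset_span (Or.inl ⟨_, hτ, x, rfl⟩))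
  · -- injective_torsion
    intro x hx hsp
    have hxH : x ∈ H₀ := by
      have : H₀.mkQ x = 0 := hsp
      rwa [Submodule.mkQ_apply, Submodule.Quotient.mk_eq_zero] at this
    exact hρinj x hx (rho_eq_zero_of_mem_H0 ρ A σ₀ t ℓ hρgens hxH)
  · -- SpecialFibreRelation
    intro y
    obtain ⟨x, rfl⟩ := Submodule.Quotient.mk_surjective H₀ y
    change F (F (H₀.mkQ x)) - t • F (H₀.mkQ x) + ℓ • (H₀.mkQ x) = 0
    have hF : ∀ z, F (H₀.mkQ z) = H₀.mkQ (σ₀ • z) := fun z => rfl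
    rw [hF, hF, ← map_smul, ← map_nsmul, ← map_sub, ← map_add, Submodule.mkQ_apply,
      Submodule.Quotient.mk_eq_zero]
    exact Submodule.subset_span (Or.inr ⟨x, rfl⟩)

end Formal

end Fermat.Agent.S37x.Asm.H13
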