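import Fermat.Agent.S37x.Asm.DefsRed
import Fermat.Agent.S18x.Kum.H12_Wire

/-!
# S37, leaf [INJ] (helper12): S18 for an ARBITRARY place reduction, from the Kummer criterion
at prime exponents

* `h12_stInj_of_kumAt` : `StInj N ℓ A` from `Asm.H12.StKumAt A N p` at all primes `p ≠ ℓ`;
* `h12_stInj_of_kumVPrime` : `StInj N ℓ A` from the Gauss-ring form `Kum.StKumVPrime A N ℓ`
  (the statement that the S18 chain delivers).
-/

set_option autoImplicit false
set_option synthInstance.maxHeartbeats 400000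
set_option maxHeartbeats 1000000

open ModularCurve AlgebraicCurve HahnSeries

noncomputable section

namespace Fermat.Agent.S37x.Asm.H12

variable (N : ℕ) [NeZero N] (ℓ : ℕ) [Fact ℓ.Prime] (A : ValuationSubring (AlgebraicClosure ℚ))

theorem h12_stInj_of_kumAt (hℓN : ¬ ℓ ∣ N) (hA : A.LiesOverPrime ℓ)
    (hK : ∀ p : ℕ, p.Prime → p ≠ ℓ → Fermat.Agent.S18x.Asm.H12.StKumAt A N p) :
    Fermat.Agent.S37x.Asm.StInj N ℓ A := by
  intro r hr hgen m hm z hmz hz
  exact Fermat.Agent.S18x.Asm.H12.h12_inj_of_prime A N ℓ hK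
    (Fermat.Agent.S18x.Asm.H24.h24_stLift A N ℓ)
    (Fermat.Agent.S18x.Asm.H24.h24_stConst_of A N ℓ (Fermat.Agent.S18x.E.H29.stConst A N))
    hℓN hA r hr hgen m hm z hmz hz

theorem h12_stInj_of_kumVPrime (hℓN : ¬ ℓ ∣ N) (hA : A.LiesOverPrime ℓ)
    (hK : Fermat.Agent.S18x.Kum.StKumVPrime A N ℓ) :
    Fermat.Agent.S37x.Asm.StInj N ℓ A :=
  h12_stInj_of_kumAt N ℓ A hℓN hA (fun p hp hpℓ =>
    Fermat.Agent.S18x.Asm.H12.stKumAt_of_pow
      (Fermat.Agent.S18x.Kum.H12.h12_stKumPowAt_of_kumVAt A N (hK p hp hpℓ)))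

end Fermat.Agent.S37x.Asm.H12
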