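import Fermat.Agent.S37x.Asm.H12_Inj
import Fermat.Agent.S18x.Dict.H7_IGParts
import Fermat.Agent.S18x.Desc.H19_Asc

/-!
# S37, leaf [INJ-M] (helper12): `Asm.StInj` from the inputs of the S18 chain

`StInj M ℓ A` is S18 for an ARBITRARY place reduction `r` at level `M`.

* `h12_stInjM_of_ig`        : `StInj M ℓ A` from the [IG] inputs `Dict.H7.H7IG A M K` over all
  number fields `K` inside `ℚ̄` (no descent of the level);
* `h12_stInjM_of_hSM_two`   : `StInj M ℓ A` for `2 ∣ M`, `ℓ` odd, from (SM) on the two charts of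
  the level-2 Hauptmodul;
* `h12_stInjM_of_hSM_three` : `StInj M ℓ A` for `3 ∣ M`, `ℓ ≠ 3`, from (SM) on the two charts of
  the level-3 Hauptmodul;
* `h12_stInj_of_ig_level`   : `StInj N ℓ A` for `N ∣ M` from the [IG] inputs at level `M`
  (with the descent of the level of the S18 chain);
* `h12_stInj_of_kumVPrime_level` : the same from `Kum.StKumVPrime A M ℓ`.
-/

set_option autoImplicit false
set_option synthInstance.maxHeartbeats 400000
set_option maxHeartbeats 1000000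

open ModularCurve AlgebraicCurve HahnSeries

noncomputable section

namespace Fermat.Agent.S37x.Asm.H12

variable (ℓ : ℕ) [Fact ℓ.Prime] (A : ValuationSubring (AlgebraicClosure ℚ))

/-- **[INJ-M]** from the [IG] inputs at level `M`, over all number fields inside `ℚ̄`. -/
theorem h12_stInjM_of_ig (M : ℕ) [NeZero M] (hℓM : ¬ ℓ ∣ M) (hA : A.LiesOverPrime ℓ)
    (hIG : ∀ K : IntermediateField ℚ (AlgebraicClosure ℚ), FiniteDimensional ℚ K →
      ∀ _ : IsDiscreteValuationRing (A.comap (algebraMap ↥K (AlgebraicClosure ℚ))),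
        Fermat.Agent.S18x.Dict.H7.H7IG A M K) :
    Fermat.Agent.S37x.Asm.StInj M ℓ A :=
  h12_stInj_of_kumVPrime M ℓ A hℓM hA
    (Fermat.Agent.S18x.Dict.H7.h7_stKumVPrime_of_forall A (Fact.out : ℓ.Prime) hA M hIG)

/-- **[INJ-M]** for `2 ∣ M`, `ℓ` odd, from (SM) on the two charts of the level-2 Hauptmodul. -/
theorem h12_stInjM_of_hSM_two (M : ℕ) [NeZero M] (hℓ2 : ℓ ≠ 2) (h2M : 2 ∣ M) (hℓM : ¬ ℓ ∣ M)
    (hA : A.LiesOverPrime ℓ)
    (hSM : ∀ K : IntermediateField ℚ (AlgebraicClosure ℚ), FiniteDimensional ℚ K →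
      ∀ _ : IsDiscreteValuationRing (A.comap (algebraMap ↥K (AlgebraicClosure ℚ))),
      ∃ π₀ : A.comap (algebraMap ↥K (AlgebraicClosure ℚ)), Irreducible π₀ ∧
        Fermat.Agent.S18x.IG.HSMChart (A.comap (algebraMap ↥K (AlgebraicClosure ℚ)))
          (Fermat.Agent.S18x.Dict.H7.h7x2 M ↥K h2M) π₀ ∧
        Fermat.Agent.S18x.IG.HSMChart (A.comap (algebraMap ↥K (AlgebraicClosure ℚ)))
          (Fermat.Agent.S18x.Dict.H7.h7x2 M ↥K h2M)⁻¹ π₀) :
    Fermat.Agent.S37x.Asm.StInj M ℓ A :=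
  h12_stInj_of_kumVPrime M ℓ A hℓM hA
    (Fermat.Agent.S18x.Dict.H7.h7_stKumVPrime_two A (Fact.out : ℓ.Prime) hA M hℓ2 h2M hℓM hSM)

/-- **[INJ-M]** for `3 ∣ M`, `ℓ ≠ 3`, from (SM) on the two charts of the level-3 Hauptmodul. -/
theorem h12_stInjM_of_hSM_three (M : ℕ) [NeZero M] (hℓ3 : ℓ ≠ 3) (h3M : 3 ∣ M) (hℓM : ¬ ℓ ∣ M)
    (hA : A.LiesOverPrime ℓ)
    (hSM : ∀ K : IntermediateField ℚ (AlgebraicClosure ℚ), FiniteDimensional ℚ K →
      ∀ _ : IsDiscreteValuationRing (A.comap (algebraMap ↥K (AlgebraicClosure ℚ))),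
      ∃ π₀ : A.comap (algebraMap ↥K (AlgebraicClosure ℚ)), Irreducible π₀ ∧
        Fermat.Agent.S18x.IG.HSMChart (A.comap (algebraMap ↥K (AlgebraicClosure ℚ)))
          (Fermat.Agent.S18x.Dict.H7.h7x3 M ↥K h3M) π₀ ∧
        Fermat.Agent.S18x.IG.HSMChart (A.comap (algebraMap ↥K (AlgebraicClosure ℚ)))
          (Fermat.Agent.S18x.Dict.H7.h7x3 M ↥K h3M)⁻¹ π₀) :
    Fermat.Agent.S37x.Asm.StInj M ℓ A :=
  h12_stInj_of_kumVPrime M ℓ A hℓM hA
    (Fermat.Agent.S18x.Dict.H7.h7_stKumVPrime_three A (Fact.out : ℓ.Prime) hA M hℓ3 h3M hℓM hSM)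

/-- **[INJ]** at level `N ∣ M` from `Kum.StKumVPrime` at level `M` (descent of the level). -/
theorem h12_stInj_of_kumVPrime_level (N : ℕ) [NeZero N] (M : ℕ) [NeZero M] (hNM : N ∣ M)
    (hℓM : ¬ ℓ ∣ M) (hA : A.LiesOverPrime ℓ)
    (hK : Fermat.Agent.S18x.Kum.StKumVPrime A M ℓ) :
    Fermat.Agent.S37x.Asm.StInj N ℓ A :=
  h12_stInj_of_kumVPrime N ℓ A (fun h => hℓM (h.trans hNM)) hA
    (Fermat.Agent.S18x.Desc.H19.h19_level_prime A (Fact.out : ℓ.Prime) hA hNM hℓM hK)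

/-- **[INJ]** at level `N ∣ M` from the [IG] inputs at level `M`. -/
theorem h12_stInj_of_ig_level (N : ℕ) [NeZero N] (M : ℕ) [NeZero M] (hNM : N ∣ M)
    (hℓM : ¬ ℓ ∣ M) (hA : A.LiesOverPrime ℓ)
    (hIG : ∀ K : IntermediateField ℚ (AlgebraicClosure ℚ), FiniteDimensional ℚ K →
      ∀ _ : IsDiscreteValuationRing (A.comap (algebraMap ↥K (AlgebraicClosure ℚ))),
        Fermat.Agent.S18x.Dict.H7.H7IG A M K) :
    Fermat.Agent.S37x.Asm.StInj N ℓ A :=
  h12_stInj_of_kumVPrime_level ℓ A N M hNM hℓM hA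
    (Fermat.Agent.S18x.Dict.H7.h7_stKumVPrime_of_forall A (Fact.out : ℓ.Prime) hA M hIG)

end Fermat.Agent.S37x.Asm.H12
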