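import Fermat.Agent.S37x.Asm.H13_Top
import Fermat.Prelude.Def_ModularCurve_ReductionModL
import Fermat.Prelude.Def_ModularCurve_HeckeModule

/-!
# S37: reduction to statements about PLACES (helper13)

`result_of_places` has EXACTLY the conclusion of the frozen statement S37.  Its hypotheses are the
place-level leaves of the S37 blueprint, for a place reduction `r` (a map from the places of the
generic fibre to the places of the special fibre, `IsPlaceReductionModL`):

* [HECKE-DEF] `HeckeInputsAlong` for every prime `ℓ ∤ N` (otherwise `heckeOperatorBar N ℓ = 0`);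
* [EXIST] a place reduction `r` with `PrincipalGeneratedByIntegral`;
* [INERT] `StInert`: `r (τ P) = r P` for `τ` in the inertia group;
* [KRON] `StKron`: `r_* (T_ℓ [σ₀ P]) = [r (σ₀ σ₀ P)] + ℓ [r P]` for every place `P`
  (only the single operator `T_ℓ`, no Frobenius on the special fibre has to be defined);
* [S18gen] `StInj`: the reduction of divisor classes along `r` is injective on `p`-power torsion.
-/

set_option autoImplicit false
set_option linter.style.haveILetI false
set_option synthInstance.maxHeartbeats 400000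

open ModularCurve AlgebraicCurve

noncomputable section

namespace Fermat.Agent.S37x.Asm.H13

section Leaves

variable (N : ℕ) [NeZero N] (A : ValuationSubring (AlgebraicClosure ℚ))

/-- The type of place maps from the generic to the special fibre. -/
abbrev PlaceMap : Type :=
  Place (AlgebraicClosure ℚ) (modularFunctionFieldBar N) →
    Place (IsLocalRing.ResidueField A)
      (modularFunctionFieldFullC (IsLocalRing.ResidueField A) N)

/-- The Galois action on places. -/
abbrev galPlace (σ : AlgebraicClosure ℚ ≃ₐ[ℚ] AlgebraicClosure ℚ)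
    (P : Place (AlgebraicClosure ℚ) (modularFunctionFieldBar N)) :
    Place (AlgebraicClosure ℚ) (modularFunctionFieldBar N) :=
  arithmeticGalois (modularFunctionFieldFull N) σ • P

/-- **[INERT]** the place reduction is invariant under inertia. -/
def StInert (r : PlaceMap N A) : Prop :=
  ∀ τ ∈ A.inertiaSubgroupIn ℚ, ∀ P, r (galPlace N τ P) = r P

/-- **[KRON]** (Kronecker congruence at the level of places): for every place `P`,
`r_* (T_ℓ [σ₀ P]) = [r (σ₀² P)] + ℓ [r P]`. -/
def StKron (ℓ : ℕ) [NeZero ℓ] (σ₀ : AlgebraicClosure ℚ ≃ₐ[ℚ] AlgebraicClosure ℚ)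
    (r : PlaceMap N A) : Prop :=
  ∀ (hα : HeckeAlphaBarIntegral (AlgebraicClosure ℚ) N ℓ)
    (hβ : HeckeBetaBarIntegral (AlgebraicClosure ℚ) N ℓ)
    [HasPrincipalDivisors (AlgebraicClosure ℚ) (modularFunctionFieldBar (N * ℓ))],
    ∀ P : Place (AlgebraicClosure ℚ) (modularFunctionFieldBar N),
      Finsupp.mapDomain r (heckeDivBar hα hβ (Finsupp.single (galPlace N σ₀ P) 1)) =
        Finsupp.single (r (galPlace N σ₀ (galPlace N σ₀ P))) 1 + Finsupp.single (r P) (ℓ : ℤ)

/-- **[S18gen]** S18 for an arbitrary place reduction. -/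
def StInj (p : ℕ) (r : PlaceMap N A) (hr : IsPlaceReductionModL A N r)
    (hgen : PrincipalGeneratedByIntegral A (IsLocalRing.residue A) N) : Prop :=
  ∀ x : JZero N, (∃ n : ℕ, p ^ n • x = 0) → reductionPic0Along r hr hgen x = 0 → x = 0

end Leaves

section Assembly

variable {N : ℕ} [NeZero N] {A : ValuationSubring (AlgebraicClosure ℚ)}
variable {r : PlaceMap N A} (hr : IsPlaceReductionModL A N r)
  (hgen : PrincipalGeneratedByIntegral A (IsLocalRing.residue A) N)

omit [NeZero N] in
/-- `r_*` after the action of `σ` on divisors. -/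
theorem mapDomain_galois_smul (r : PlaceMap N A) (σ : AlgebraicClosure ℚ ≃ₐ[ℚ] AlgebraicClosure ℚ)
    (D : Divisor (AlgebraicClosure ℚ) (modularFunctionFieldBar N)) :
    Finsupp.mapDomain r (arithmeticGalois (modularFunctionFieldFull N) σ • D) =
      Finsupp.mapDomain (fun P => r (galPlace N σ P)) D := by
  rw [SemilinearAut.divisor_smul_def, ← Finsupp.mapDomain_comp]
  rfl

omit [NeZero N] in
/-- The reduction of `σ • [D]`. -/
theorem rho_smul_mk (σ : AlgebraicClosure ℚ ≃ₐ[ℚ] AlgebraicClosure ℚ)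
    (D : Divisor.degZero (K := AlgebraicClosure ℚ) (F := modularFunctionFieldBar N)) :
    reductionPic0Along r hr hgen (σ • Pic0.mk D) =
      Pic0.mk (reductionDegZeroAlong r hr.1
        (SemilinearAut.degZeroSMulHom (arithmeticGalois (modularFunctionFieldFull N) σ) D)) :=
  rfl

/-- (a) from [INERT]. -/
theorem rho_inertia (h : StInert N A r) :
    ∀ τ ∈ A.inertiaSubgroupIn ℚ, ∀ x : JZero N,
      reductionPic0Along r hr hgen (τ • x) = reductionPic0Along r hr hgen x := by
  intro τ hτ x
  obtain ⟨D, rfl⟩ := Pic0.mk_surjective x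
  rw [rho_smul_mk hr hgen τ D, reductionPic0Along_mk]
  refine congrArg Pic0.mk (Subtype.ext ?_)
  rw [coe_reductionDegZeroAlong, coe_reductionDegZeroAlong, SemilinearAut.coe_degZeroSMulHom,
    mapDomain_galois_smul]
  congr 1
  funext P
  exact h τ hτ P

/-- The divisor-level congruence relation from [KRON]. -/
theorem kron_div {ℓ : ℕ} [NeZero ℓ] {σ₀ : AlgebraicClosure ℚ ≃ₐ[ℚ] AlgebraicClosure ℚ}
    (h : StKron N A ℓ σ₀ r)
    (hα : HeckeAlphaBarIntegral (AlgebraicClosure ℚ) N ℓ)
    (hβ : HeckeBetaBarIntegral (AlgebraicClosure ℚ) N ℓ)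
    [HasPrincipalDivisors (AlgebraicClosure ℚ) (modularFunctionFieldBar (N * ℓ))]
    (D : Divisor (AlgebraicClosure ℚ) (modularFunctionFieldBar N)) :
    Finsupp.mapDomain r (heckeDivBar hα hβ
        (arithmeticGalois (modularFunctionFieldFull N) σ₀ • D)) =
      Finsupp.mapDomain r (arithmeticGalois (modularFunctionFieldFull N) σ₀ •
        arithmeticGalois (modularFunctionFieldFull N) σ₀ • D) +
        (ℓ : ℤ) • Finsupp.mapDomain r D := by
  induction D using Finsupp.induction_linear with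
  | zero => simp
  | add D E hD hE =>
    simp only [smul_add, map_add, Finsupp.mapDomain_add, hD, hE]
    abel
  | single P n =>
    have e1 : (Finsupp.single (arithmeticGalois (modularFunctionFieldFull N) σ₀ • P) n :
        Divisor (AlgebraicClosure ℚ) (modularFunctionFieldBar N)) =
        n • Finsupp.single (galPlace N σ₀ P) 1 := by
      rw [Finsupp.smul_single, smul_eq_mul, mul_one]
    rw [SemilinearAut.smul_single, SemilinearAut.smul_single, e1,
      map_zsmul, Finsupp.mapDomain_smul, h hα hβ P, Finsupp.mapDomain_single,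
      Finsupp.mapDomain_single, smul_add, Finsupp.smul_single, Finsupp.smul_single,
      Finsupp.smul_single, smul_eq_mul, smul_eq_mul, smul_eq_mul, mul_one, mul_comm]

/-- (b) from [HECKE-DEF] + [KRON]. -/
theorem rho_es {ℓ : ℕ} (hℓ : ℓ.Prime) {σ₀ : AlgebraicClosure ℚ ≃ₐ[ℚ] AlgebraicClosure ℚ}
    (hin : haveI : NeZero ℓ := ⟨hℓ.ne_zero⟩; HeckeInputsAlong (AlgebraicClosure ℚ) N ℓ)
    (h : haveI : NeZero ℓ := ⟨hℓ.ne_zero⟩; StKron N A ℓ σ₀ r) (y : JZero N) :
    reductionPic0Along r hr hgen
      (σ₀ • σ₀ • y - heckeOperatorBar N ⟨ℓ, hℓ⟩ (σ₀ • y) + ℓ • y) = 0 := by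
  haveI : NeZero ℓ := ⟨hℓ.ne_zero⟩
  obtain ⟨hα, hβ, hP, hfin, hFI, hN⟩ := hin
  haveI := hP
  have eT : ∀ x : JZero N, heckeOperatorBar N ⟨ℓ, hℓ⟩ x = heckePic0Bar hα hβ hFI hfin hN x := by
    intro x
    rw [heckeOperatorBar_apply]
    exact congrArg (fun f : JZero N →+ JZero N => f x)
      (heckeOperatorAlong_eq hα hβ hFI hfin hN)
  obtain ⟨D, rfl⟩ := Pic0.mk_surjective y
  have key : reductionPic0Along r hr hgen (heckePic0Bar hα hβ hFI hfin hN (σ₀ • Pic0.mk D)) =
      reductionPic0Along r hr hgen (σ₀ • σ₀ • Pic0.mk D) +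
        ℓ • reductionPic0Along r hr hgen (Pic0.mk D) := by
    rw [← map_nsmul, ← map_add]
    refine congrArg Pic0.mk (Subtype.ext ?_)
    have hk := kron_div h hα hβ (D : Divisor (AlgebraicClosure ℚ) (modularFunctionFieldBar N))
    rw [natCast_zsmul] at hk
    change Finsupp.mapDomain r (heckeDivBar hα hβ
        (arithmeticGalois (modularFunctionFieldFull N) σ₀ •
          (D : Divisor (AlgebraicClosure ℚ) (modularFunctionFieldBar N)))) =
      Finsupp.mapDomain r (arithmeticGalois (modularFunctionFieldFull N) σ₀ •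
        arithmeticGalois (modularFunctionFieldFull N) σ₀ •
          (D : Divisor (AlgebraicClosure ℚ) (modularFunctionFieldBar N)) +
        ℓ • (D : Divisor (AlgebraicClosure ℚ) (modularFunctionFieldBar N)))
    rw [Finsupp.mapDomain_add, hk]
    congr 1
    exact (map_nsmul (Finsupp.mapDomain.addMonoidHom r) ℓ _).symm
  rw [map_add, map_sub, map_nsmul, eT, key]
  abel

end Assembly

section Top

/-- **S37 from the place-level leaves** [HECKE-DEF], [EXIST] (`r`, `hr`, `hgen`), [INERT],
[KRON], [S18gen].  The conclusion is EXACTLY the frozen statement S37. -/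
theorem result_of_places (N p : ℕ) [NeZero N] (hcomm : ModularCurve.HeckeOperatorsCommuteBar N)
    (hHD : ∀ (ℓ : ℕ) (hℓ : ℓ.Prime), ¬ ℓ ∣ N →
      haveI : NeZero ℓ := ⟨hℓ.ne_zero⟩
      HeckeInputsAlong (AlgebraicClosure ℚ) N ℓ)
    (H : ∀ (ℓ : ℕ) (hℓ : ℓ.Prime), ¬ ℓ ∣ N * p →
      ∀ A : ValuationSubring (AlgebraicClosure ℚ), A.LiesOverPrime ℓ →
      ∀ σ₀ : AlgebraicClosure ℚ ≃ₐ[ℚ] AlgebraicClosure ℚ, A.IsFrobeniusAt σ₀ ℓ →
      ∃ (r : PlaceMap N A) (hr : IsPlaceReductionModL A N r)
        (hgen : PrincipalGeneratedByIntegral A (IsLocalRing.residue A) N),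
        StInert N A r ∧
        (haveI : NeZero ℓ := ⟨hℓ.ne_zero⟩; StKron N A ℓ σ₀ r) ∧
        StInj N A p r hr hgen) :
    letI := ModularCurve.heckeModuleBar N
    ∀ (_ : SMulCommClass (AlgebraicClosure ℚ ≃ₐ[ℚ] AlgebraicClosure ℚ) ModularCurve.HeckeAlg
      (ModularCurve.JZero N)),
      ModularCurve.SpecializationExists (K := ℚ) (L := AlgebraicClosure ℚ) N p
        (ModularCurve.JZero N) := by
  refine result_of_rho N p hcomm ?_
  intro ℓ hℓ hℓNp A hA σ₀ hσ₀
  obtain ⟨r, hr, hgen, h1, h2, h3⟩ := H ℓ hℓ hℓNp A hA σ₀ hσ₀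
  have hℓN : ¬ ℓ ∣ N := fun h => hℓNp (Dvd.dvd.mul_right h p)
  exact ⟨JZeroC (IsLocalRing.ResidueField A) N, inferInstance, reductionPic0Along r hr hgen,
    rho_inertia hr hgen h1, fun y => rho_es hr hgen hℓ (hHD ℓ hℓ hℓN) h2 y, h3⟩

end Top



end Fermat.Agent.S37x.Asm.H13
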