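import Fermat.Agent.S37x.Asm.H13_Formal
import Fermat.Agent.S54.Frobenius
import Fermat.Prelude.Def_ModularCurve_HeckeModule

/-!
# S37: the frozen statement from the single non-formal input `ρ` (helper13)

`result_of_rho` has EXACTLY the conclusion of the frozen statement S37; its hypothesis `H` asks,
for every prime `ℓ ∤ N p`, every `A` over `ℓ` and every Frobenius lift `σ₀` at `A`, for an
additive map `ρ` on `JZero N` such that

* (a) `ρ (τ • x) = ρ x` for `τ` in the inertia group of `A`;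
* (b) `ρ (σ₀ • σ₀ • y - T_ℓ (σ₀ • y) + ℓ • y) = 0`, `T_ℓ = heckeOperatorBar N ℓ`;
* (c) `ρ` is injective on `p`-power torsion.

Existence of Frobenius lifts: `Fermat.Agent.S54.exists_isFrobeniusAt` (landed).
-/

set_option autoImplicit false
set_option linter.style.haveILetI false

open ModularCurve

noncomputable section

namespace Fermat.Agent.S37x.Asm.H13

/-- **S37 from `ρ`** (the frozen statement of S37, with the single non-formal input as a
hypothesis). -/
theorem result_of_rho (N p : ℕ) [NeZero N] (hcomm : ModularCurve.HeckeOperatorsCommuteBar N)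
    (H : ∀ (ℓ : ℕ) (hℓ : ℓ.Prime), ¬ ℓ ∣ N * p →
      ∀ A : ValuationSubring (AlgebraicClosure ℚ), A.LiesOverPrime ℓ →
      ∀ σ₀ : AlgebraicClosure ℚ ≃ₐ[ℚ] AlgebraicClosure ℚ, A.IsFrobeniusAt σ₀ ℓ →
      ∃ (X : Type) (_ : AddCommGroup X) (ρ : JZero N →+ X),
        (∀ τ ∈ A.inertiaSubgroupIn ℚ, ∀ x : JZero N, ρ (τ • x) = ρ x) ∧
        (∀ y : JZero N,
          ρ (σ₀ • σ₀ • y - heckeOperatorBar N ⟨ℓ, hℓ⟩ (σ₀ • y) + ℓ • y) = 0) ∧
        (∀ x : JZero N, (∃ n : ℕ, p ^ n • x = 0) → ρ x = 0 → x = 0)) :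
    letI := ModularCurve.heckeModuleBar N
    ∀ (_ : SMulCommClass (AlgebraicClosure ℚ ≃ₐ[ℚ] AlgebraicClosure ℚ) ModularCurve.HeckeAlg
      (ModularCurve.JZero N)),
      ModularCurve.SpecializationExists (K := ℚ) (L := AlgebraicClosure ℚ) N p
        (ModularCurve.JZero N) := by
  letI := ModularCurve.heckeModuleBar N
  intro _
  refine specializationExists_of_rho (J := JZero N) N p
    (fun ℓ hℓ A hA => Fermat.Agent.S54.exists_isFrobeniusAt A ℓ hℓ hA) ?_
  intro ℓ hℓ hℓNp A hA σ₀ hσ₀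
  obtain ⟨X, instX, ρ, h1, h2, h3⟩ := H ℓ hℓ hℓNp A hA σ₀ hσ₀
  refine ⟨X, instX, ρ, h1, ?_, h3⟩
  intro y
  rw [heckeModuleBar_heckeGen_smul hcomm]
  exact h2 y

end Fermat.Agent.S37x.Asm.H13
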