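import Fermat.Agent.S37x.Asm.DefsDesc

/-!
# S37, DESIGN L: the mixed Eichler–Shimura operator on divisors (helper14, chief)

`N ∣ M`, `ι = incL N M : F_N → F_M`, `r` a map from the places of `F_M` to the places of `F̄_M`.

* `h14_esOp g T ℓ = T - g - ℓ g⁻¹` on the divisors of a function field;
* `h14_esDelta N M ℓ hNM A r hα hβ hint σ₀ = r_* ∘ ι^* ∘ (T_ℓ - σ₀ - ℓ σ₀⁻¹)`, from the divisors of
  `F_N` to the divisors of `F̄_M`;
* generic lemmas: the divisor of `φ f`, of a norm, of `g • f`.

The Eichler–Shimura congruence relation in the mixed form is `h14_esDelta … = 0`.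
-/

set_option autoImplicit false
set_option synthInstance.maxHeartbeats 400000
set_option maxHeartbeats 1000000
set_option linter.style.haveILetI false
set_option linter.unusedSectionVars false

open HahnSeries IntermediateField AlgebraicCurve ModularCurve

noncomputable section

namespace Fermat.Agent.S37x.Asm

section Generic

variable {K F F' : Type*} [Field K] [Field F] [Field F'] [Algebra K F] [Algebra K F']

/-- The divisor of `φ f` is the pullback of the divisor of `f`. -/
theorem h14_pullbackAlong_apply_eq_ord [HasPrincipalDivisors K F'] (φ : F →ₐ[K] F')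
    (hφ : φ.toRingHom.IsIntegral) {f : F} {D : Divisor K F}
    (hD : ∀ v : Place K F, D v = v.ord f) (w : Place K F') :
    Divisor.pullbackAlong φ hφ D w = w.ord (φ f) := by
  letI := algebraAlong φ
  haveI := isScalarTower_along φ
  haveI := isIntegral_along φ hφ
  exact Divisor.pullback_apply_eq_ord hD w

/-- The divisor of the norm of `f` is the pushforward of the divisor of `f`. -/
theorem h14_pushforwardAlong_apply_eq_ord (φ : F →ₐ[K] F')
    (hφ : φ.toRingHom.IsIntegral) (hfin : FiniteAlong K φ) (hN : NormFormulaAlong K φ hfin)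
    {f : F'} (hf : f ≠ 0) {D : Divisor K F'}
    (hD : ∀ w : Place K F', D w = w.ord f) (v : Place K F) :
    Divisor.pushforwardAlong φ hφ D v =
      v.ord (letI := algebraAlong φ; Algebra.norm F f) := by
  letI := algebraAlong φ
  haveI := isScalarTower_along φ
  haveI := isIntegral_along φ hφ
  haveI : Module.Finite F F' := hfin
  exact hN f hf D hD v

/-- The divisor of `g • f` is the translate of the divisor of `f`. -/
theorem h14_smul_apply_eq_ord (g : SemilinearAut K F) {f : F} {D : Divisor K F}
    (hD : ∀ v : Place K F, D v = v.ord f) (w : Place K F) :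
    (g • D) w = w.ord (g • f) := by
  rw [SemilinearAut.divisor_smul_apply, hD (g⁻¹ • w)]
  have h := SemilinearAut.ord_smul g (g⁻¹ • w) f
  rw [smul_inv_smul] at h
  exact h.symm

/-- The Eichler–Shimura operator on divisors: `T - g - ℓ g⁻¹`. -/
def h14_esOp (g : SemilinearAut K F) (T : Divisor K F →+ Divisor K F) (ℓ : ℕ) :
    Divisor K F →+ Divisor K F :=
  T - DistribSMul.toAddMonoidHom (Divisor K F) g -
    ℓ • DistribSMul.toAddMonoidHom (Divisor K F) g⁻¹

theorem h14_esOp_apply (g : SemilinearAut K F) (T : Divisor K F →+ Divisor K F) (ℓ : ℕ)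
    (D : Divisor K F) : h14_esOp g T ℓ D = T D - g • D - ℓ • (g⁻¹ • D) := rfl

theorem h14_esOp_single (g : SemilinearAut K F) (T : Divisor K F →+ Divisor K F) (ℓ : ℕ)
    (P : Place K F) :
    h14_esOp g T ℓ (Finsupp.single P 1) =
      T (Finsupp.single P 1) - Finsupp.single (g • P) 1 - Finsupp.single (g⁻¹ • P) (ℓ : ℤ) := by
  rw [h14_esOp_apply, SemilinearAut.smul_single, SemilinearAut.smul_single,
    Finsupp.smul_single, nsmul_eq_mul, mul_one]

end Generic

section Main

variable (N M ℓ : ℕ) [NeZero N] [NeZero M] [NeZero ℓ]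

/-- The mixed Eichler–Shimura operator `δ = (r_M)_* ∘ ι^* ∘ (T_ℓ - σ₀ - ℓ σ₀⁻¹)` from divisors of
`F_N` to divisors of `F̄_M`. -/
def h14_esDelta (hNM : N ∣ M) (A : ValuationSubring (AlgebraicClosure ℚ))
    (r : Place (AlgebraicClosure ℚ) (modularFunctionFieldBar M) →
      Place (IsLocalRing.ResidueField A)
        (modularFunctionFieldFullC (IsLocalRing.ResidueField A) M))
    (hα : HeckeAlphaBarIntegral (AlgebraicClosure ℚ) N ℓ)
    (hβ : HeckeBetaBarIntegral (AlgebraicClosure ℚ) N ℓ)
    [HasPrincipalDivisors (AlgebraicClosure ℚ) (modularFunctionFieldBar (N * ℓ))]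
    [HasPrincipalDivisors (AlgebraicClosure ℚ) (modularFunctionFieldBar M)]
    (hint : (incL N M hNM).toRingHom.IsIntegral)
    (σ₀ : AlgebraicClosure ℚ ≃ₐ[ℚ] AlgebraicClosure ℚ) :
    Divisor (AlgebraicClosure ℚ) (modularFunctionFieldBar N) →+
      Divisor (IsLocalRing.ResidueField A)
        (modularFunctionFieldFullC (IsLocalRing.ResidueField A) M) :=
  (Finsupp.mapDomain.addMonoidHom r).comp
    ((Divisor.pullbackAlong (incL N M hNM) hint).comp
      (h14_esOp (arithmeticGalois (modularFunctionFieldFull N) σ₀) (heckeDivBar hα hβ) ℓ))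

variable {N M ℓ}

theorem h14_esDelta_apply (hNM : N ∣ M) (A : ValuationSubring (AlgebraicClosure ℚ))
    (r : Place (AlgebraicClosure ℚ) (modularFunctionFieldBar M) →
      Place (IsLocalRing.ResidueField A)
        (modularFunctionFieldFullC (IsLocalRing.ResidueField A) M))
    (hα : HeckeAlphaBarIntegral (AlgebraicClosure ℚ) N ℓ)
    (hβ : HeckeBetaBarIntegral (AlgebraicClosure ℚ) N ℓ)
    [HasPrincipalDivisors (AlgebraicClosure ℚ) (modularFunctionFieldBar (N * ℓ))]
    [HasPrincipalDivisors (AlgebraicClosure ℚ) (modularFunctionFieldBar M)]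
    (hint : (incL N M hNM).toRingHom.IsIntegral)
    (σ₀ : AlgebraicClosure ℚ ≃ₐ[ℚ] AlgebraicClosure ℚ)
    (D : Divisor (AlgebraicClosure ℚ) (modularFunctionFieldBar N)) :
    h14_esDelta N M ℓ hNM A r hα hβ hint σ₀ D =
      Finsupp.mapDomain r (Divisor.pullbackAlong (incL N M hNM) hint
        (heckeDivBar hα hβ D - arithmeticGalois (modularFunctionFieldFull N) σ₀ • D -
          ℓ • ((arithmeticGalois (modularFunctionFieldFull N) σ₀)⁻¹ • D))) := rfl

theorem h14_esDelta_single (hNM : N ∣ M) (A : ValuationSubring (AlgebraicClosure ℚ))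
    (r : Place (AlgebraicClosure ℚ) (modularFunctionFieldBar M) →
      Place (IsLocalRing.ResidueField A)
        (modularFunctionFieldFullC (IsLocalRing.ResidueField A) M))
    (hα : HeckeAlphaBarIntegral (AlgebraicClosure ℚ) N ℓ)
    (hβ : HeckeBetaBarIntegral (AlgebraicClosure ℚ) N ℓ)
    [HasPrincipalDivisors (AlgebraicClosure ℚ) (modularFunctionFieldBar (N * ℓ))]
    [HasPrincipalDivisors (AlgebraicClosure ℚ) (modularFunctionFieldBar M)]
    (hint : (incL N M hNM).toRingHom.IsIntegral)
    (σ₀ : AlgebraicClosure ℚ ≃ₐ[ℚ] AlgebraicClosure ℚ)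
    (P : Place (AlgebraicClosure ℚ) (modularFunctionFieldBar N)) :
    h14_esDelta N M ℓ hNM A r hα hβ hint σ₀ (Finsupp.single P 1) =
      Finsupp.mapDomain r (Divisor.pullbackAlong (incL N M hNM) hint
        (heckeDivBar hα hβ (Finsupp.single P 1) -
          Finsupp.single (arithmeticGalois (modularFunctionFieldFull N) σ₀ • P) 1 -
          Finsupp.single ((arithmeticGalois (modularFunctionFieldFull N) σ₀)⁻¹ • P) (ℓ : ℤ))) := by
  show Finsupp.mapDomain r (Divisor.pullbackAlong (incL N M hNM) hint
    (h14_esOp (arithmeticGalois (modularFunctionFieldFull N) σ₀) (heckeDivBar hα hβ) ℓ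
      (Finsupp.single P 1))) = _
  rw [h14_esOp_single]

end Main

end Fermat.Agent.S37x.Asm
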