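import Fermat.Agent.S37x.Asm.H14_EsDefs
import Fermat.Agent.S37x.Norm.H3_Det
import Fermat.Agent.S18x.Desc.H19_Bridge
import Fermat.Agent.S18x.Dict.H23_Dvr

/-!
# S37 [ES-PRIN] (helper14, chief): the mixed Eichler–Shimura operator kills principal divisors

`h14_esDelta N M ℓ hNM A r hα hβ hint σ₀ = r_* ∘ ι^* ∘ (T_ℓ - σ₀ - ℓ σ₀⁻¹)` (see `H14_EsDefs`).
For a place reduction `r` at level `M` (`IsPlaceReductionModL A M r`), a Frobenius element `σ₀`
at `A`, and an integral `y ∈ F_N` with nonzero reduction `ȳ ∈ F̄_N`: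

* `T_ℓ (div y) = div (Norm_α (β y))` (norm formula), `Norm_α (β y)` is integral with reduction
  `ȳ(q^ℓ) · ȳ^φ` (`StNorm`);
* `σ₀ (div y) = div (σ₀ y)`, with reduction `ȳ^φ`; `σ₀⁻¹ (div y) = div (σ₀⁻¹ y)`, with reduction
  `ȳ^ψ`, `ψ = φ⁻¹`, and `(ȳ^ψ)^ℓ = ȳ(q^ℓ)`;
* conservation for `r` at level `M`: `δ (div y) = div (ȳ(q^ℓ) ȳ^φ) - div (ȳ^φ) - ℓ div (ȳ^ψ) = 0`.

`h14_esDelta_principal`: `δ` kills every principal divisor (`PrincipalGeneratedByIntegral` at
level `N`).
-/

set_option autoImplicit false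
set_option synthInstance.maxHeartbeats 400000
set_option maxHeartbeats 1000000
set_option linter.style.haveILetI false
set_option linter.unusedSectionVars false

open HahnSeries IntermediateField AlgebraicCurve ModularCurve

noncomputable section

namespace Fermat.Agent.S37x.Asm

section Frob

variable (A : ValuationSubring (AlgebraicClosure ℚ))

/-- The action of an element of the decomposition group on `A`. -/
def h14_decHom (g : A.decompositionSubgroup ℚ) : A →+* A :=
  MulSemiringAction.toRingHom (A.decompositionSubgroup ℚ) A g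

/-- The action of an element of the decomposition group on the residue field. -/
def h14_resHom (g : A.decompositionSubgroup ℚ) :
    IsLocalRing.ResidueField A →+* IsLocalRing.ResidueField A :=
  MulSemiringAction.toRingHom (A.decompositionSubgroup ℚ) (IsLocalRing.ResidueField A) g

theorem h14_resHom_apply (g : A.decompositionSubgroup ℚ) (x : IsLocalRing.ResidueField A) :
    h14_resHom A g x = g • x := rfl

theorem h14_coeffMap_subtype_decHom (g : A.decompositionSubgroup ℚ) (y : LaurentSeries A) :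
    coeffMap A.subtype (coeffMap (h14_decHom A g) y) =
      coeffMap (((g : AlgebraicClosure ℚ ≃ₐ[ℚ] AlgebraicClosure ℚ) : AlgebraicClosure ℚ →+*
        AlgebraicClosure ℚ)) (coeffMap A.subtype y) := by
  rw [coeffMap_coeffMap, coeffMap_coeffMap]
  exact coeffMap_congr (RingHom.ext fun _ => rfl) y

theorem h14_coeffMap_residue_decHom (g : A.decompositionSubgroup ℚ) (y : LaurentSeries A) :
    coeffMap (IsLocalRing.residue A) (coeffMap (h14_decHom A g) y) =
      coeffMap (h14_resHom A g) (coeffMap (IsLocalRing.residue A) y) := by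
  rw [coeffMap_coeffMap, coeffMap_coeffMap]
  exact coeffMap_congr (RingHom.ext fun _ => rfl) y

theorem h14_resHom_inv_comp (g : A.decompositionSubgroup ℚ) :
    (h14_resHom A g).comp (h14_resHom A g⁻¹) = RingHom.id _ :=
  RingHom.ext fun x => by
    show g • g⁻¹ • x = x
    rw [smul_inv_smul]

end Frob

section Main

variable {N M ℓ : ℕ} [NeZero N] [NeZero M] [NeZero ℓ]

/-- **[ES-PRIN], integral generators.** -/
theorem h14_esDelta_integral (hℓ : ℓ.Prime) (hNM : N ∣ M)
    (A : ValuationSubring (AlgebraicClosure ℚ)) (hA : A.LiesOverPrime ℓ)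
    (r : Place (AlgebraicClosure ℚ) (modularFunctionFieldBar M) →
      Place (IsLocalRing.ResidueField A)
        (modularFunctionFieldFullC (IsLocalRing.ResidueField A) M))
    (hr : IsPlaceReductionModL A M r) (hnorm : StNorm N ℓ A)
    (hα : HeckeAlphaBarIntegral (AlgebraicClosure ℚ) N ℓ)
    (hβ : HeckeBetaBarIntegral (AlgebraicClosure ℚ) N ℓ)
    [HasPrincipalDivisors (AlgebraicClosure ℚ) (modularFunctionFieldBar (N * ℓ))]
    [HasPrincipalDivisors (AlgebraicClosure ℚ) (modularFunctionFieldBar M)]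
    (hfin : FiniteAlong (AlgebraicClosure ℚ) (heckeAlphaBar (AlgebraicClosure ℚ) N ℓ))
    (hNF : NormFormulaAlong (AlgebraicClosure ℚ) (heckeAlphaBar (AlgebraicClosure ℚ) N ℓ) hfin)
    (hint : (incL N M hNM).toRingHom.IsIntegral)
    (σ₀ : AlgebraicClosure ℚ ≃ₐ[ℚ] AlgebraicClosure ℚ) (hσ₀ : A.IsFrobeniusAt σ₀ ℓ)
    (y : LaurentSeries A) (hy : coeffMap A.subtype y ∈ modularFunctionFieldBar N)
    (hyk : coeffMap (IsLocalRing.residue A) y ∈
      modularFunctionFieldFullC (IsLocalRing.ResidueField A) N)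
    (hy0 : coeffMap (IsLocalRing.residue A) y ≠ 0)
    (D : Divisor (AlgebraicClosure ℚ) (modularFunctionFieldBar N))
    (hD : ∀ P, D P = P.ord (⟨coeffMap A.subtype y, hy⟩ : modularFunctionFieldBar N)) :
    h14_esDelta N M ℓ hNM A r hα hβ hint σ₀ D = 0 := by
  classical
  haveI : Fact ℓ.Prime := ⟨hℓ⟩
  haveI : CharP (IsLocalRing.ResidueField A) ℓ :=
    Fermat.Agent.S18x.Dict.H23.h23_charP_residueField' hℓ A hA
  set g := arithmeticGalois (modularFunctionFieldFull N) σ₀ with hg
  set gd : A.decompositionSubgroup ℚ := ⟨σ₀, hσ₀.mem_decompositionSubgroup⟩ with hgd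
  set φ := h14_resHom A gd with hφdef
  set ψ := h14_resHom A gd⁻¹ with hψdef
  have hφ : ∀ x, φ x = x ^ ℓ := fun x => hσ₀.smul_residue_eq x
  have hφfrob : φ = frobenius (IsLocalRing.ResidueField A) ℓ := by
    ext x
    rw [hφ, frobenius_def]
  have hφψ : φ.comp ψ = RingHom.id _ := h14_resHom_inv_comp A gd
  set ybar := coeffMap (IsLocalRing.residue A) y with hybar
  set f : modularFunctionFieldBar N := ⟨coeffMap A.subtype y, hy⟩ with hf
  -- the three integral functions
  obtain ⟨Y₁, hY₁, hnormY, hredY₁⟩ := hnorm φ hφ y hy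
  set Y₂ := coeffMap (h14_decHom A gd) y with hY₂def
  set Y₃ := coeffMap (h14_decHom A gd⁻¹) y with hY₃def
  have hredY₂ : coeffMap (IsLocalRing.residue A) Y₂ = coeffMap φ ybar :=
    h14_coeffMap_residue_decHom A gd y
  have hredY₃ : coeffMap (IsLocalRing.residue A) Y₃ = coeffMap ψ ybar :=
    h14_coeffMap_residue_decHom A gd⁻¹ y
  have hpow : coeffMap ψ ybar ^ ℓ = qExpand (IsLocalRing.ResidueField A) ℓ ybar := by
    rw [Fermat.Agent.S37x.Norm.H3.h3_pow_char, coeffMap_coeffMap, ← hφfrob, hφψ, coeffMap_id]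
  -- non-vanishing
  have h2ne : coeffMap φ ybar ≠ 0 := fun h =>
    hy0 (Fermat.Agent.S18x.Desc.H19.h19_coeffMap_injective φ (h.trans (map_zero _).symm))
  have h3ne : coeffMap ψ ybar ≠ 0 := fun h =>
    hy0 (Fermat.Agent.S18x.Desc.H19.h19_coeffMap_injective ψ (h.trans (map_zero _).symm))
  have hf0 : f ≠ 0 := by
    intro h
    apply hy0
    have h1 : coeffMap A.subtype y = 0 := congrArg Subtype.val h
    have h2 : y = 0 := by
      ext n
      have := congrArg (fun z => z.coeff n) h1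
      simp only [coeffMap_coeff, HahnSeries.coeff_zero] at this
      simpa using this
    rw [hybar, h2, map_zero]
  -- memberships at level `M`
  have hleL := bar_le_bar N M hNM
  have hlek := full_degeneracyC_le (IsLocalRing.ResidueField A) hNM
  have hmφ : coeffMap φ ybar ∈ modularFunctionFieldFullC (IsLocalRing.ResidueField A) N :=
    Fermat.Agent.S18x.Desc.H19.h19_coeffMap_mem_full φ N hyk
  have hmψ : coeffMap ψ ybar ∈ modularFunctionFieldFullC (IsLocalRing.ResidueField A) N :=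
    Fermat.Agent.S18x.Desc.H19.h19_coeffMap_mem_full ψ N hyk
  have hY₂ : coeffMap A.subtype Y₂ ∈ modularFunctionFieldBar N := by
    rw [hY₂def, h14_coeffMap_subtype_decHom]
    exact coeffMap_mem_laurentBaseChange σ₀ hy
  have hY₃ : coeffMap A.subtype Y₃ ∈ modularFunctionFieldBar N := by
    rw [hY₃def, h14_coeffMap_subtype_decHom]
    exact coeffMap_mem_laurentBaseChange σ₀⁻¹ hy
  have hk₁ : coeffMap (IsLocalRing.residue A) Y₁ ∈
      modularFunctionFieldFullC (IsLocalRing.ResidueField A) M := by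
    rw [hredY₁, ← hpow]
    exact hlek (mul_mem (pow_mem hmψ ℓ) hmφ)
  have hk₂ : coeffMap (IsLocalRing.residue A) Y₂ ∈
      modularFunctionFieldFullC (IsLocalRing.ResidueField A) M := by
    rw [hredY₂]; exact hlek hmφ
  have hk₃ : coeffMap (IsLocalRing.residue A) Y₃ ∈
      modularFunctionFieldFullC (IsLocalRing.ResidueField A) M := by
    rw [hredY₃]; exact hlek hmψ
  have hn₁ : coeffMap (IsLocalRing.residue A) Y₁ ≠ 0 := by
    rw [hredY₁, ← hpow]
    exact mul_ne_zero (pow_ne_zero _ h3ne) h2ne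
  have hn₂ : coeffMap (IsLocalRing.residue A) Y₂ ≠ 0 := by rw [hredY₂]; exact h2ne
  have hn₃ : coeffMap (IsLocalRing.residue A) Y₃ ≠ 0 := by rw [hredY₃]; exact h3ne
  -- the three divisors at level `N`
  have hβf0 : heckeBetaBar (AlgebraicClosure ℚ) N ℓ f ≠ 0 :=
    (map_ne_zero_iff _ (heckeBetaBar (AlgebraicClosure ℚ) N ℓ).toRingHom.injective).mpr hf0
  have hD₁ : ∀ v, heckeDivBar hα hβ D v =
      v.ord (⟨coeffMap A.subtype Y₁, hY₁⟩ : modularFunctionFieldBar N) := by
    intro v
    have h1 := h14_pushforwardAlong_apply_eq_ord (heckeAlphaBar (AlgebraicClosure ℚ) N ℓ) hα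
      hfin hNF hβf0 (D := Divisor.pullbackAlong (heckeBetaBar (AlgebraicClosure ℚ) N ℓ) hβ D)
      (fun w => h14_pullbackAlong_apply_eq_ord (heckeBetaBar (AlgebraicClosure ℚ) N ℓ) hβ hD w) v
    rw [← hnormY]
    exact h1
  have hD₂ : ∀ v, (g • D) v =
      v.ord (⟨coeffMap A.subtype Y₂, hY₂⟩ : modularFunctionFieldBar N) := by
    intro v
    rw [h14_smul_apply_eq_ord g hD v]
    congr 1
  have hD₃ : ∀ v, (g⁻¹ • D) v =
      v.ord (⟨coeffMap A.subtype Y₃, hY₃⟩ : modularFunctionFieldBar N) := by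
    intro v
    rw [h14_smul_apply_eq_ord g⁻¹ hD v]
    congr 1
  -- conservation at level `M`
  have hcons : ∀ (Y : LaurentSeries A) (hY : coeffMap A.subtype Y ∈ modularFunctionFieldBar N)
      (hk : coeffMap (IsLocalRing.residue A) Y ∈
        modularFunctionFieldFullC (IsLocalRing.ResidueField A) M)
      (_ : coeffMap (IsLocalRing.residue A) Y ≠ 0)
      (E : Divisor (AlgebraicClosure ℚ) (modularFunctionFieldBar N))
      (_ : ∀ v, E v = v.ord (⟨coeffMap A.subtype Y, hY⟩ : modularFunctionFieldBar N)) Q,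
      Finsupp.mapDomain r (Divisor.pullbackAlong (incL N M hNM) hint E) Q =
        Q.ord (⟨coeffMap (IsLocalRing.residue A) Y, hk⟩ :
          modularFunctionFieldFullC (IsLocalRing.ResidueField A) M) := by
    intro Y hY hk hne E hE Q
    refine hr.2 Y (hleL hY) hk hne _ (fun w => ?_) Q
    exact h14_pullbackAlong_apply_eq_ord (incL N M hNM) hint hE w
  -- the computation
  rw [h14_esDelta_apply]
  have e1 : Finsupp.mapDomain r (Divisor.pullbackAlong (incL N M hNM) hint
      (heckeDivBar hα hβ D - g • D - ℓ • (g⁻¹ • D))) =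
      Finsupp.mapDomain r (Divisor.pullbackAlong (incL N M hNM) hint (heckeDivBar hα hβ D)) -
        Finsupp.mapDomain r (Divisor.pullbackAlong (incL N M hNM) hint (g • D)) -
        ℓ • Finsupp.mapDomain r (Divisor.pullbackAlong (incL N M hNM) hint (g⁻¹ • D)) := by
    rw [map_sub, map_sub, map_nsmul, ← Finsupp.mapDomain.addMonoidHom_apply, map_sub, map_sub,
      map_nsmul]
    rfl
  rw [e1]
  ext Q
  rw [Finsupp.sub_apply, Finsupp.sub_apply, Finsupp.smul_apply, Finsupp.zero_apply,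
    hcons Y₁ hY₁ hk₁ hn₁ _ hD₁ Q, hcons Y₂ hY₂ hk₂ hn₂ _ hD₂ Q, hcons Y₃ hY₃ hk₃ hn₃ _ hD₃ Q]
  have e2 : (⟨coeffMap (IsLocalRing.residue A) Y₁, hk₁⟩ :
      modularFunctionFieldFullC (IsLocalRing.ResidueField A) M) =
      (⟨coeffMap (IsLocalRing.residue A) Y₃, hk₃⟩ :
        modularFunctionFieldFullC (IsLocalRing.ResidueField A) M) ^ ((ℓ : ℕ) : ℤ) *
      ⟨coeffMap (IsLocalRing.residue A) Y₂, hk₂⟩ := by
    apply Subtype.ext
    rw [zpow_natCast]
    show coeffMap (IsLocalRing.residue A) Y₁ =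
      coeffMap (IsLocalRing.residue A) Y₃ ^ ℓ * coeffMap (IsLocalRing.residue A) Y₂
    rw [hredY₁, hredY₂, hredY₃, hpow]
  have hne3' : (⟨coeffMap (IsLocalRing.residue A) Y₃, hk₃⟩ :
      modularFunctionFieldFullC (IsLocalRing.ResidueField A) M) ≠ 0 :=
    fun h => hn₃ (congrArg Subtype.val h)
  have hne2' : (⟨coeffMap (IsLocalRing.residue A) Y₂, hk₂⟩ :
      modularFunctionFieldFullC (IsLocalRing.ResidueField A) M) ≠ 0 :=
    fun h => hn₂ (congrArg Subtype.val h)
  rw [e2, Place.ord_mul Q (zpow_ne_zero _ hne3') hne2', Place.ord_zpow, nsmul_eq_mul]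
  ring

/-- **[ES-PRIN]** the mixed Eichler–Shimura operator kills the principal divisors of `F_N`. -/
theorem h14_esDelta_principal (hℓ : ℓ.Prime) (hNM : N ∣ M)
    (A : ValuationSubring (AlgebraicClosure ℚ)) (hA : A.LiesOverPrime ℓ)
    (r : Place (AlgebraicClosure ℚ) (modularFunctionFieldBar M) →
      Place (IsLocalRing.ResidueField A)
        (modularFunctionFieldFullC (IsLocalRing.ResidueField A) M))
    (hr : IsPlaceReductionModL A M r)
    (hgen : PrincipalGeneratedByIntegral A (IsLocalRing.residue A) N)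
    (hnorm : StNorm N ℓ A)
    (hα : HeckeAlphaBarIntegral (AlgebraicClosure ℚ) N ℓ)
    (hβ : HeckeBetaBarIntegral (AlgebraicClosure ℚ) N ℓ)
    [HasPrincipalDivisors (AlgebraicClosure ℚ) (modularFunctionFieldBar (N * ℓ))]
    [HasPrincipalDivisors (AlgebraicClosure ℚ) (modularFunctionFieldBar M)]
    (hfin : FiniteAlong (AlgebraicClosure ℚ) (heckeAlphaBar (AlgebraicClosure ℚ) N ℓ))
    (hNF : NormFormulaAlong (AlgebraicClosure ℚ) (heckeAlphaBar (AlgebraicClosure ℚ) N ℓ) hfin)
    (hint : (incL N M hNM).toRingHom.IsIntegral)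
    (σ₀ : AlgebraicClosure ℚ ≃ₐ[ℚ] AlgebraicClosure ℚ) (hσ₀ : A.IsFrobeniusAt σ₀ ℓ)
    (D : Divisor (AlgebraicClosure ℚ) (modularFunctionFieldBar N)) (hD : D.IsPrincipal) :
    h14_esDelta N M ℓ hNM A r hα hβ hint σ₀ D = 0 := by
  have hD' : D ∈ AddSubgroup.closure (integralPrincipalDivisors A (IsLocalRing.residue A) N) :=
    hgen hD
  have hle : AddSubgroup.closure (integralPrincipalDivisors A (IsLocalRing.residue A) N) ≤
      (h14_esDelta N M ℓ hNM A r hα hβ hint σ₀).ker := by
    rw [AddSubgroup.closure_le]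
    rintro E ⟨y, hy, hyk, hy0, hE⟩
    exact h14_esDelta_integral hℓ hNM A hA r hr hnorm hα hβ hfin hNF hint σ₀ hσ₀ y hy hyk hy0 E hE
  exact hle hD'

end Main

end Fermat.Agent.S37x.Asm
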